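import Fermat.Agent.SLnVolume.Asymptotic

/-!
# Subgroups with a short vector

At most `C D ^ n R ^ (n + 1)` subgroups of `ℤ ^ (n + 1)` of index at most `D` contain a nonzero
vector with coordinates at most `R`.
-/

set_option autoImplicit false

noncomputable section

open Finset

namespace FA.SLnVolume

/-- The subgroups of index at most `D` with a nonzero vector of size at most `R`. -/
def thinSet (n D R : ℕ) : Set (AddSubgroup (Fin n → ℤ)) :=
  {L ∈ subgroupsUpTo n D | ∃ v ∈ L, v ≠ 0 ∧ ∀ i, |v i| ≤ (R : ℤ)}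

theorem sum_withVector_le (n D R : ℕ) {C : ℝ} (hC : 0 ≤ C)
    (hmom : ∀ x : ℕ, moment n 0 x ≤ C * (x : ℝ) ^ n) {v : Fin (n + 1) → ℤ} (hv : v ≠ 0)
    (hvR : ∀ i, |v i| ≤ (R : ℤ)) :
    ∑ d ∈ Finset.Icc 1 D, ((withVector d v).ncard : ℝ) ≤
      C * (D : ℝ) ^ n * ((Finset.Icc 1 R).filter fun e : ℕ => ∀ i, (e : ℤ) ∣ v i).card := by
  obtain ⟨g, hg, hgv, hle⟩ := ncard_withVector_le n hv
  obtain ⟨i₀, hi₀⟩ := Function.ne_iff.1 hv
  calc ∑ d ∈ Finset.Icc 1 D, ((withVector d v).ncard : ℝ)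
      ≤ ∑ d ∈ Finset.Icc 1 D, ∑ p ∈ d.divisorsAntidiagonal,
          if p.1 ∣ g then (p.1 : ℝ) ^ n * idxCount n p.2 else 0 := by
        refine Finset.sum_le_sum fun d hd => ?_
        rw [← Finset.sum_filter]
        have := hle d (by have := (Finset.mem_Icc.1 hd).1; omega)
        exact (Nat.cast_le.2 this).trans_eq (by push_cast; rfl)
    _ = ∑ e ∈ Finset.Icc 1 D, if e ∣ g then (e : ℝ) ^ n * moment n 0 (D / e) else 0 := by
        rw [sum_antidiagonal_swap fun e f => if e ∣ g then (e : ℝ) ^ n * idxCount n f else 0]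
        refine Finset.sum_congr rfl fun e _ => ?_
        split_ifs with h
        · rw [moment, Finset.mul_sum]
          simp
        · simp
    _ ≤ ∑ e ∈ Finset.Icc 1 D, if e ∣ g then C * (D : ℝ) ^ n else 0 := by
        refine Finset.sum_le_sum fun e he => ?_
        split_ifs with h
        · have he' : (0 : ℝ) < e := Nat.cast_pos.2 (Finset.mem_Icc.1 he).1
          calc (e : ℝ) ^ n * moment n 0 (D / e) ≤ (e : ℝ) ^ n * (C * ((D : ℝ) / e) ^ n) := by
                refine mul_le_mul_of_nonneg_left ((hmom _).trans (mul_le_mul_of_nonneg_left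
                  (pow_le_pow_left₀ (Nat.cast_nonneg _) Nat.cast_div_le n) hC)) (by positivity)
            _ = C * (D : ℝ) ^ n := by
                rw [div_pow]
                field_simp
        · rfl
    _ = C * (D : ℝ) ^ n * ((Finset.Icc 1 D).filter fun e => e ∣ g).card := by
        rw [← Finset.sum_filter, Finset.sum_const, nsmul_eq_mul, mul_comm]
    _ ≤ _ := by
        refine mul_le_mul_of_nonneg_left (Nat.cast_le.2 (Finset.card_le_card fun e he => ?_))
          (by positivity)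
        obtain ⟨he, heg⟩ := Finset.mem_filter.1 he
        have hev : ∀ i, (e : ℤ) ∣ v i := fun i => (Int.natCast_dvd_natCast.2 heg).trans (hgv i)
        refine Finset.mem_filter.2 ⟨Finset.mem_Icc.2 ⟨(Finset.mem_Icc.1 he).1, ?_⟩, hev⟩
        have h1 := Int.le_of_dvd (abs_pos.2 hi₀) ((dvd_abs _ _).2 (hev i₀))
        have := hvR i₀
        omega

theorem exists_thin_le {n : ℕ} (hn : 1 ≤ n) :
    ∃ C : ℝ, 0 ≤ C ∧ ∀ D R : ℕ,
      ((thinSet (n + 1) D R).ncard : ℝ) ≤ C * (D : ℝ) ^ n * (R : ℝ) ^ (n + 1) := by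
  classical
  obtain ⟨C, hC0, hC⟩ := exists_moment_le (tendsto_moment n hn 0)
  obtain ⟨Z, hZ⟩ : ∃ Z : ℝ, Z = ∑' e : ℕ, 1 / (e : ℝ) ^ (n + 1) := ⟨_, rfl⟩
  have hZs := Real.summable_one_div_nat_pow.2 (show 1 < n + 1 by omega)
  refine ⟨C * 3 ^ (n + 1) * Z, mul_nonneg (by positivity)
    (hZ ▸ tsum_nonneg fun e => by positivity), fun D R => ?_⟩
  obtain ⟨B, hB⟩ : ∃ B : Finset (Fin (n + 1) → ℤ),
      B = (Fintype.piFinset fun _ => Finset.Icc (-(R : ℤ)) R).erase 0 := ⟨_, rfl⟩
  have hW : ∀ d ∈ Finset.Icc 1 D, ∀ v : Fin (n + 1) → ℤ, (withVector d v).Finite := fun d hd v =>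
    (finite_idxSet (by have := (Finset.mem_Icc.1 hd).1; omega)).subset fun L h => h.1
  have hsub : thinSet (n + 1) D R ⊆
      ↑(B.biUnion fun v => (Finset.Icc 1 D).attach.biUnion fun d => (hW d.1 d.2 v).toFinset) := by
    rintro L ⟨⟨h1, h2⟩, v, hv, hv0, hvR⟩
    simp only [Finset.coe_biUnion, Set.mem_iUnion₂]
    refine ⟨v, ?_, ⟨L.index, Finset.mem_Icc.2 ⟨h1, h2⟩⟩, Finset.mem_attach _ _,
      (Set.Finite.mem_toFinset _).2 ⟨rfl, hv⟩⟩
    rw [hB]
    exact Finset.mem_erase.2 ⟨hv0,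
      Fintype.mem_piFinset.2 fun i => Finset.mem_Icc.2 (abs_le.1 (hvR i))⟩
  have hBv : ∀ v ∈ B, v ≠ 0 ∧ ∀ i, |v i| ≤ (R : ℤ) := fun v hv => by
    rw [hB, Finset.mem_erase, Fintype.mem_piFinset] at hv
    exact ⟨hv.1, fun i => abs_le.2 (Finset.mem_Icc.1 (hv.2 i))⟩
  calc ((thinSet (n + 1) D R).ncard : ℝ)
      ≤ ((∑ v ∈ B, ∑ d ∈ (Finset.Icc 1 D).attach, (hW d.1 d.2 v).toFinset.card : ℕ) : ℝ) := by
        refine Nat.cast_le.2 ((Set.ncard_le_ncard hsub (Finset.finite_toSet _)).trans ?_)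
        rw [Set.ncard_coe_finset]
        exact Finset.card_biUnion_le.trans (Finset.sum_le_sum fun v _ => Finset.card_biUnion_le)
    _ = ∑ v ∈ B, ∑ d ∈ Finset.Icc 1 D, ((withVector d v).ncard : ℝ) := by
        push_cast
        refine Finset.sum_congr rfl fun v _ => ?_
        rw [← Finset.sum_attach (Finset.Icc 1 D) fun d => ((withVector d v).ncard : ℝ)]
        exact Finset.sum_congr rfl fun d _ => by rw [Set.ncard_eq_toFinset_card _ (hW d.1 d.2 v)]
    _ ≤ ∑ v ∈ B, C * (D : ℝ) ^ n *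
          ((Finset.Icc 1 R).filter fun e : ℕ => ∀ i, (e : ℤ) ∣ v i).card :=
        Finset.sum_le_sum fun v hv =>
          sum_withVector_le n D R hC0 hC (hBv v hv).1 (hBv v hv).2
    _ = C * (D : ℝ) ^ n * ∑ e ∈ Finset.Icc 1 R,
          ((B.filter fun v => ∀ i, (e : ℤ) ∣ v i).card : ℝ) := by
        rw [← Finset.mul_sum]
        congr 1
        simp only [Finset.card_filter, Nat.cast_sum]
        rw [Finset.sum_comm]
    _ ≤ C * (D : ℝ) ^ n *
          ∑ e ∈ Finset.Icc 1 R, (3 * (R : ℝ)) ^ (n + 1) * (1 / (e : ℝ) ^ (n + 1)) := by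
        refine mul_le_mul_of_nonneg_left (Finset.sum_le_sum fun e he => ?_) (by positivity)
        obtain ⟨he1, heR⟩ := Finset.mem_Icc.1 he
        have hcard : (B.filter fun v => ∀ i, (e : ℤ) ∣ v i).card ≤ (2 * (R / e) + 1) ^ (n + 1) := by
          refine le_trans (Finset.card_le_card_of_injOn
            (t := Fintype.piFinset fun _ : Fin (n + 1) =>
            Finset.Icc (-((R / e : ℕ) : ℤ)) (R / e : ℕ)) (fun v i => v i / (e : ℤ)) ?_ ?_) ?_
          · intro v hv
            obtain ⟨hv, hev⟩ := Finset.mem_filter.1 hv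
            refine Fintype.mem_piFinset.2 fun i => Finset.mem_Icc.2 (abs_le.1 ?_)
            obtain ⟨c, hc⟩ := hev i
            have he0 : (0 : ℤ) < e := by exact_mod_cast he1
            show |v i / (e : ℤ)| ≤ _
            rw [hc, Int.mul_ediv_cancel_left _ he0.ne']
            have h1 : |v i| ≤ (R : ℤ) := (hBv v hv).2 i
            rw [hc, abs_mul, abs_of_pos he0] at h1
            rw [Int.natCast_div, Int.le_ediv_iff_mul_le he0, mul_comm]
            exact h1
          · intro v hv w hw h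
            funext i
            have hv' := (Finset.mem_filter.1 hv).2 i
            have hw' := (Finset.mem_filter.1 hw).2 i
            have := congrFun h i
            rw [← Int.ediv_mul_cancel hv', ← Int.ediv_mul_cancel hw',
              show v i / (e : ℤ) = w i / (e : ℤ) from this]
          · rw [Fintype.card_piFinset, Finset.prod_const, Finset.card_univ, Fintype.card_fin,
              Int.card_Icc]
            exact Nat.pow_le_pow_left (by omega) _
        have he' : (0 : ℝ) < e := Nat.cast_pos.2 he1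
        rw [mul_one_div, ← div_pow]
        refine (Nat.cast_le.2 hcard).trans ?_
        push_cast
        refine pow_le_pow_left₀ (by positivity) ?_ _
        have h1 : ((R / e : ℕ) : ℝ) ≤ (R : ℝ) / (e : ℝ) := Nat.cast_div_le
        have h2 : (1 : ℝ) ≤ (R : ℝ) / e := (one_le_div he').2 (Nat.cast_le.2 heR)
        rw [mul_div_assoc]
        linarith
    _ ≤ C * (D : ℝ) ^ n * ((3 * (R : ℝ)) ^ (n + 1) * Z) := by
        rw [← Finset.mul_sum, hZ]
        exact mul_le_mul_of_nonneg_left (mul_le_mul_of_nonneg_left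
          (hZs.sum_le_tsum _ fun e _ => by positivity) (by positivity)) (by positivity)
    _ = _ := by rw [mul_pow]; ring

end FA.SLnVolume

end
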