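import Fermat.Agent.SLnVolume.Orbits
import Fermat.Agent.SLnVolume.Thin
import Mathlib.MeasureTheory.Measure.Regular
import Mathlib.Topology.Separation.Hausdorff

/-!
# The volume of the space of lattices

The cone over a fundamental domain of `SL n ℤ` in `SL n ℝ` has volume `ζ(2) ⋯ ζ(n) / n`: the
integral matrices of determinant at most `N ^ n` up to unimodular equivalence are counted both by
subgroups and by the lattice points in the dilated cone, and few of them have a short row.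
-/

set_option autoImplicit false

noncomputable section

open Matrix MeasureTheory Filter Topology Bornology Metric
open scoped ENNReal
open FA.SLnLattice

namespace FA.SLnVolume

variable {n : ℕ}

theorem continuous_lmul (h : SLR n) : Continuous (lmul h) :=
  continuous_pi fun i => continuous_pi fun j => by
    simp only [lmul, Matrix.mul_apply, Matrix.of_apply]
    fun_prop

theorem lmul_mul (g h : SLR n) (X : Rows n) : lmul (g * h) X = lmul g (lmul h X) := by
  funext i j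
  exact congrArg (fun M : Matrix (Fin n) (Fin n) ℝ => M i j)
    (Matrix.mul_assoc g.1 h.1 (Matrix.of X))

theorem null_frontier_balls [NeZero n] {ι : Type*} (t : Finset ι) (c : ι → Rows n) (r : ι → ℝ) :
    volume (frontier (⋃ i ∈ t, closedBall (c i) (r i))) = 0 := by
  refine measure_mono_null (t := ⋃ i ∈ t, sphere (c i) (r i)) ?_
    ((measure_biUnion_null_iff t.countable_toSet).2 fun i _ => Measure.addHaar_sphere volume _ _)
  intro X hX
  have hcl : IsClosed (⋃ i ∈ t, closedBall (c i) (r i)) :=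
    t.finite_toSet.isClosed_biUnion fun i _ => isClosed_closedBall
  obtain ⟨i, hi, hXi⟩ := Set.mem_iUnion₂.1 (hcl.frontier_subset hX)
  refine Set.mem_iUnion₂.2 ⟨i, hi, ?_⟩
  rcases eq_or_lt_of_le (mem_closedBall.1 hXi) with h | h
  · exact h
  · refine absurd (mem_interior.2 ⟨ball (c i) (r i), ?_, isOpen_ball, h⟩) hX.2
    exact fun Y hY => Set.mem_iUnion₂.2 ⟨i, hi, ball_subset_closedBall hY⟩

theorem cone_smul_mem [NeZero n] {E : Set (SLR n)} {X : Rows n} (hX : X ∈ cone E) {t : ℝ}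
    (ht : 0 < t) (ht' : t < 1) : t • X ∈ cone E ∩ {Y | rdet Y < 1} := by
  obtain ⟨s, ⟨hs, hs'⟩, g, hg, rfl⟩ := hX
  have hts : t * s < 1 := lt_of_le_of_lt (mul_le_of_le_one_right ht.le hs') ht'
  have e : t • (fun i j => s * g i j : Rows n) = fun i j => t * s * g i j := by
    funext i j
    simp [mul_assoc]
  rw [e]
  refine ⟨⟨t * s, ⟨mul_pos ht hs, hts.le⟩, g, hg, rfl⟩, ?_⟩
  show rdet _ < 1
  rw [rdet_mul_left]
  exact pow_lt_one₀ (by positivity) hts (NeZero.ne n)

/-- A set meeting every orbit exactly once. -/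
def IsTransversal (E : Set (SLR n)) : Prop := ∀ x, ∃! γ : Gamma n, γ • x ∈ E

theorem exists_lmul_mem_cone [NeZero n] {E : Set (SLR n)} (hE : IsTransversal E) {X : Rows n}
    (hX : X ∈ unitCone n) :
    ∃ γ : Matrix.SpecialLinearGroup (Fin n) ℤ, lmul (castSL γ) X ∈ cone E := by
  obtain ⟨⟨g, γ, rfl⟩, hγ, -⟩ := hE (proj X)
  refine ⟨γ, ?_⟩
  rw [cone_eq]
  refine ⟨?_, ?_⟩
  · show proj (lmul (castSL γ) X) ∈ E
    rw [← mul_proj _ hX.1]
    exact hγ
  · show rdet _ ∈ Set.Ioc (0 : ℝ) 1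
    rw [rdet_lmul]
    exact hX

theorem eq_one_of_mem_cone [NeZero n] {E : Set (SLR n)} (hE : IsTransversal E) {X : Rows n}
    {γ : Matrix.SpecialLinearGroup (Fin n) ℤ} (hX : X ∈ cone E)
    (hγX : lmul (castSL γ) X ∈ cone E) : γ = 1 := by
  rw [cone_eq] at hX hγX
  have h1 : (1 : Gamma n) • proj X ∈ E := by rw [one_smul]; exact hX.1
  have h2 : (⟨castSL γ, γ, rfl⟩ : Gamma n) • proj X ∈ E := by
    show castSL γ * proj X ∈ E
    rw [mul_proj _ hX.2.1]
    exact hγX.1
  have h3 := congrArg Subtype.val ((hE (proj X)).unique h2 h1)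
  exact castSL_injective (h3.trans (map_one _).symm)

/-- Compact subsets of a fundamental cone have neighbourhoods with disjoint translates. -/
theorem exists_separated_nhds [NeZero n] {E : Set (SLR n)} (hE : IsTransversal E)
    {K : Set (Rows n)} (hK : IsCompact K) (hKsub : K ⊆ cone E ∩ {Y | rdet Y < 1}) :
    ∃ V : Set (Rows n), IsOpen V ∧ K ⊆ V ∧ (∀ X ∈ V, rdet X ∈ Set.Ioo (0 : ℝ) 1) ∧
      ∀ γ : Matrix.SpecialLinearGroup (Fin n) ℤ, ∀ X ∈ V, lmul (castSL γ) X ∈ V → γ = 1 := by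
  obtain ⟨L, hLc, hKL, hLsub⟩ := exists_compact_between hK
    (isOpen_Ioo.preimage (continuous_rdet (n := n)) : IsOpen (rdet ⁻¹' Set.Ioo (0 : ℝ) 1))
    fun X hX => ⟨((cone_eq E).subset (hKsub hX).1).2.1, (hKsub hX).2⟩
  obtain ⟨S, hS⟩ : ∃ S : Set (Matrix.SpecialLinearGroup (Fin n) ℤ),
      S = {γ | γ ≠ 1 ∧ ∃ X ∈ L, lmul (castSL γ) X ∈ L} := ⟨_, rfl⟩
  have hSfin : S.Finite := by
    have hne : ∀ p ∈ L ×ˢ L, rdet (p.1 : Rows n) ≠ 0 := fun p hp => (hLsub hp.1).1.ne'
    obtain ⟨R, hR⟩ := (hLc.prod hLc).exists_bound_of_continuousOn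
      (f := fun p : Rows n × Rows n => fun i j =>
        (Matrix.of p.2 * (Matrix.of p.1).adjugate) i j / rdet p.1) (by
      refine continuousOn_pi.2 fun i => continuousOn_pi.2 fun j => ContinuousOn.div ?_
        (continuous_rdet.comp continuous_fst).continuousOn hne
      refine Continuous.continuousOn ?_
      have h1 : Continuous fun p : Rows n × Rows n => Matrix.of p.1 := continuous_fst
      have h2 : Continuous fun p : Rows n × Rows n => Matrix.of p.2 := continuous_snd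
      exact (h2.matrix_mul h1.matrix_adjugate).matrix_elem i j)
    haveI : Countable (Matrix (Fin n) (Fin n) ℤ) :=
      inferInstanceAs (Countable (Fin n → Fin n → ℤ))
    refine Set.Finite.of_finite_image
      ((Set.Finite.pi fun _ : Fin n => Set.Finite.pi fun _ : Fin n =>
      Set.finite_Icc (-⌈R⌉) ⌈R⌉).subset ?_) (Subtype.val_injective.injOn)
    rintro _ ⟨γ, hγ, rfl⟩ i - j -
    rw [hS] at hγ
    obtain ⟨-, X, hX, hγX⟩ := hγ
    have hd : rdet X ≠ 0 := (hLsub hX).1.ne'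
    have h1 : |(γ.1 i j : ℝ)| ≤ R := by
      have e : Matrix.of (lmul (castSL γ) X) * (Matrix.of X).adjugate =
          rdet X • (castSL γ).1 := by
        rw [show Matrix.of (lmul (castSL γ) X) = (castSL γ).1 * Matrix.of X from rfl,
          Matrix.mul_assoc, Matrix.mul_adjugate, Matrix.mul_smul, Matrix.mul_one]
        rfl
      have h2 := hR (X, lmul (castSL γ) X) ⟨hX, hγX⟩
      have h3 := (norm_le_pi_norm _ j).trans ((norm_le_pi_norm _ i).trans h2)
      rw [e, Matrix.smul_apply, smul_eq_mul, mul_div_cancel_left₀ _ hd, Real.norm_eq_abs] at h3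
      exact h3
    have h4 := h1.trans (Int.le_ceil R)
    rw [abs_le] at h4
    exact ⟨by exact_mod_cast h4.1, by exact_mod_cast h4.2⟩
  have hsep : ∀ γ ∈ S, ∃ A : Set (Rows n), IsOpen A ∧ K ⊆ A ∧
      ∀ X ∈ A, lmul (castSL γ) X ∉ A := by
    intro γ hγ
    rw [hS] at hγ
    obtain ⟨u, v, hu, hv, hKu, hKv, huv⟩ := SeparatedNhds.of_isCompact_isCompact hK
      (hK.image (continuous_lmul (castSL γ))) (Set.disjoint_left.2 fun Y hY ⟨X, hX, e⟩ => hγ.1
        (eq_one_of_mem_cone hE (hKsub hX).1 (e ▸ (hKsub hY).1)))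
    exact ⟨u ∩ lmul (castSL γ) ⁻¹' v, hu.inter (hv.preimage (continuous_lmul _)),
      fun X hX => ⟨hKu hX, hKv ⟨X, hX, rfl⟩⟩,
      fun X hX h => Set.disjoint_left.1 huv h.1 hX.2⟩
  choose! A hAo hKA hA using hsep
  refine ⟨interior L ∩ ⋂ γ ∈ S, A γ, isOpen_interior.inter (hSfin.isOpen_biInter hAo),
    Set.subset_inter hKL (Set.subset_iInter₂ hKA), fun X hX => hLsub (interior_subset hX.1),
    fun γ X hX hγX => by_contra fun hne => ?_⟩
  have hγS : γ ∈ S := hS ▸ ⟨hne, X, interior_subset hX.1, interior_subset hγX.1⟩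
  exact hA γ hγS X (Set.mem_iInter₂.1 hX.2 γ hγS) (Set.mem_iInter₂.1 hγX.2 γ hγS)

theorem tendsto_count (hn : 1 ≤ n) :
    Tendsto (fun N : ℕ => ((subgroupsUpTo n (N ^ n)).ncard : ℝ) / (N : ℝ) ^ (n * n)) atTop
      (𝓝 (zetaProd n / n)) := by
  refine ((tendsto_subgroupsUpTo hn).comp
    (tendsto_pow_atTop (α := ℕ) (Nat.one_le_iff_ne_zero.1 hn))).congr fun N => ?_
  rw [Function.comp_apply, Nat.cast_pow, ← pow_mul]

/-- Lower bound for the count. -/
theorem volume_compact_le [NeZero n] {E : Set (SLR n)} (hE : IsTransversal E) {K : Set (Rows n)}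
    (hK : IsCompact K) (hKsub : K ⊆ cone E ∩ {Y | rdet Y < 1}) :
    volume.real K ≤ zetaProd n / n := by
  obtain ⟨V, hVo, hKV, hVdet, hVsep⟩ := exists_separated_nhds hE hK hKsub
  have hball : ∀ X ∈ K, ∃ r > 0, closedBall X r ⊆ V := fun X hX =>
    nhds_basis_closedBall.mem_iff.1 (hVo.mem_nhds (hKV hX))
  choose! r hr hrV using hball
  obtain ⟨t, htK, hcover⟩ := hK.elim_nhds_subcover (fun X => closedBall X (r X)) fun X hX =>
    closedBall_mem_nhds X (hr X hX)
  obtain ⟨W, hW⟩ : ∃ W, W = ⋃ X ∈ t, closedBall X (r X) := ⟨_, rfl⟩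
  have hWc : IsCompact W :=
    hW ▸ t.finite_toSet.isCompact_biUnion fun X _ => isCompact_closedBall _ _
  have hWV : W ⊆ V := hW ▸ Set.iUnion₂_subset fun X hX => hrV X (htK X hX)
  have hlim := tendsto_pointsIn hWc.isBounded hWc.measurableSet
    (hW ▸ null_frontier_balls t id r)
  refine (ENNReal.toReal_mono hWc.measure_lt_top.ne (measure_mono (hW ▸ hcover))).trans
    (le_of_tendsto_of_tendsto hlim (tendsto_count (NeZero.pos n)) ?_)
  filter_upwards [eventually_gt_atTop 0] with N hN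
  refine div_le_div_of_nonneg_right (Nat.cast_le.2 ?_) (by positivity)
  have hN' : (0 : ℝ) < (N : ℝ) ^ n := pow_pos (Nat.cast_pos.2 hN) n
  have hdet : ∀ X ∈ pointsIn W N, 0 < X.det ∧ X.det ≤ ((N ^ n : ℕ) : ℤ) := fun X hX => by
    obtain ⟨h1, h2⟩ := hVdet _ (hWV hX)
    rw [rdet_scaled] at h1 h2
    refine ⟨Int.cast_pos.1 ((div_pos_iff_of_pos_right hN').1 h1), ?_⟩
    rw [div_lt_one hN'] at h2
    exact_mod_cast h2.le
  refine Set.ncard_le_ncard_of_injOn rowSpan (fun X hX => ?_) (fun X hX Y hY h => ?_)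
    (ncard_subgroupsUpTo n _).1
  · obtain ⟨h1, h2⟩ := hdet X hX
    show 1 ≤ (rowSpan X).index ∧ (rowSpan X).index ≤ N ^ n
    rw [index_rowSpan h1.ne']
    omega
  · obtain ⟨h1, -⟩ := hdet X hX
    obtain ⟨h2, -⟩ := hdet Y hY
    have hd : Y.det = X.det := by
      have := congrArg AddSubgroup.index h
      rw [index_rowSpan h1.ne', index_rowSpan h2.ne'] at this
      omega
    obtain ⟨γ, rfl⟩ := exists_unimodular_eq h1.ne' hd h.symm
    have hγ : γ = 1 := hVsep γ _ (hWV hX) (by rw [lmul_scaled]; exact hWV hY)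
    rw [hγ, Matrix.SpecialLinearGroup.coe_one, one_mul]

/-- The bounded part: subgroups without short vectors. -/
theorem exists_compact_reps [NeZero n] {ε : ℝ} (hε : 0 < ε) :
    ∃ K : Set (Rows n), IsCompact K ∧ K ⊆ unitCone n ∧ ∀ N : ℕ, 0 < N →
      ∀ L ∈ subgroupsUpTo n (N ^ n), L ∉ thinSet n (N ^ n) ⌊ε * N⌋₊ →
        ∃ X : Matrix (Fin n) (Fin n) ℤ, 0 < X.det ∧ rowSpan X = L ∧ scaled N X ∈ K := by
  obtain ⟨c, hc⟩ : ∃ c : ℝ, c = min (ε / 2 ^ n) 1 := ⟨_, rfl⟩
  have hc0 : 0 < c := hc ▸ lt_min (by positivity) one_pos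
  obtain ⟨R, hR⟩ : ∃ R : ℝ, R = n * (c ^ n)⁻¹ := ⟨_, rfl⟩
  refine ⟨(Set.univ.pi fun _ => Set.univ.pi fun _ => Set.Icc (-R) R) ∩
      rdet ⁻¹' Set.Icc (c ^ n) 1,
    (isCompact_univ_pi fun _ => isCompact_univ_pi fun _ => isCompact_Icc).inter_right
      (isClosed_Icc.preimage continuous_rdet),
    fun X hX => ⟨lt_of_lt_of_le (pow_pos hc0 n) hX.2.1, hX.2.2⟩, fun N hN L hL hthin => ?_⟩
  obtain ⟨B, hBdet, hBspan⟩ := exists_matrix (L := L) (by have := hL.1; omega)
  obtain ⟨γ, e, x, ⟨heo, htri, hdiag, hrow⟩, hoff, hadj⟩ := exists_reduced_SL (proj (scaled N B))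
  have hB0 : 0 < B.det := by have := hL.1; omega
  have hN' : (0 : ℝ) < (N : ℝ) ^ n := pow_pos (Nat.cast_pos.2 hN) n
  have hd : 0 < rdet (scaled N B) := by
    rw [rdet_scaled]
    exact div_pos (Int.cast_pos.2 hB0) hN'
  have hd1 : rdet (scaled N B) ≤ 1 := by
    rw [rdet_scaled, div_le_one hN', hBdet]
    exact_mod_cast hL.2
  have hXspan : rowSpan (γ.1 * B) = L := by
    refine le_antisymm (fun v hv => ?_) (fun v hv => ?_)
    · obtain ⟨z, rfl⟩ := mem_rowSpan.1 hv
      exact hBspan ▸ mem_rowSpan.2 ⟨z ᵥ* γ.1, by rw [Matrix.vecMul_vecMul]⟩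
    · obtain ⟨z, rfl⟩ := mem_rowSpan.1 (hBspan.symm ▸ hv : v ∈ rowSpan B)
      exact mem_rowSpan.2 ⟨z ᵥ* (γ⁻¹).1, by rw [Matrix.vecMul_vecMul, ← Matrix.mul_assoc,
        ← Matrix.SpecialLinearGroup.coe_mul, inv_mul_cancel, Matrix.SpecialLinearGroup.coe_one,
        one_mul]⟩
  have hXdet : (γ.1 * B).det = B.det := by rw [Matrix.det_mul, γ.2, one_mul]
  obtain ⟨Y, hY⟩ : ∃ Y, Y = scaled N (γ.1 * B) := ⟨_, rfl⟩
  have hYd : rdet Y = rdet (scaled N B) := by rw [hY, rdet_scaled, rdet_scaled, hXdet]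
  obtain ⟨t, ht⟩ : ∃ t, t = rdet Y ^ ((n : ℝ)⁻¹) := ⟨_, rfl⟩
  have ht0 : 0 < t := ht ▸ Real.rpow_pos_of_pos (hYd ▸ hd) _
  have hYt : Y = fun i j => t * (castSL γ * proj (scaled N B)) i j := by
    rw [mul_proj _ hd, lmul_scaled, ← hY, ht]
    exact eq_smul_proj (hYd ▸ hd)
  obtain ⟨y, hy⟩ : ∃ y : Fin n → Fin n → ℝ, y = fun i j => t * x i j := ⟨_, rfl⟩
  have hy0 : ∀ i, 0 < y i i := fun i => by
    rw [hy]
    exact mul_pos ht0 (hdiag i)
  have hyt : ∀ i j, i < j → y i j = 0 := fun i j h => by simp [hy, htri i j h]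
  have hyrow : ∀ i, euclRows Y i = ∑ j, y i j • e j := by
    intro i
    have e1 : euclRows Y i = t • euclRows (fun a b => (castSL γ * proj (scaled N B)) a b) i := by
      ext a
      simp [euclRows, hYt]
    rw [e1, hrow i, Finset.smul_sum]
    simp [hy, smul_smul]
  have hfirst : ε ≤ y 0 0 := by
    have hv : ∃ i, (⌊ε * N⌋₊ : ℤ) < |(γ.1 * B) 0 i| := by
      by_contra hcon
      exact hthin ⟨hL, (γ.1 * B) 0, hXspan ▸ row_mem_rowSpan _ 0,
        fun h => hB0.ne' (hXdet ▸ Matrix.det_eq_zero_of_row_eq_zero 0 (congrFun h)),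
        fun i => not_lt.1 fun h => hcon ⟨i, h⟩⟩
    obtain ⟨i, hi⟩ := hv
    have h1 : ε * N ≤ |((γ.1 * B) 0 i : ℝ)| := by
      refine (Nat.lt_floor_add_one _).le.trans ?_
      rw [← Int.cast_abs]
      exact_mod_cast Int.add_one_le_iff.2 hi
    have h2 : euclRows Y 0 = y 0 0 • e 0 := by
      rw [hyrow, Finset.sum_eq_single (0 : Fin n)]
      · intro j _ hj
        rw [hyt 0 j (Fin.pos_iff_ne_zero.2 hj), zero_smul]
      · exact fun h => absurd (Finset.mem_univ _) h
    have h3 := PiLp.norm_apply_le (euclRows Y 0) i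
    rw [h2, norm_smul, heo.norm_eq_one, mul_one, Real.norm_eq_abs (y 0 0),
      abs_of_pos (hy0 0), ← h2] at h3
    refine le_trans ?_ h3
    simp only [euclRows, hY, scaled, Real.norm_eq_abs, abs_div, Nat.abs_cast]
    rwa [le_div_iff₀ (Nat.cast_pos.2 hN)]
  have hlow : ∀ j : Fin n, c ≤ y j j := by
    have hstep : ∀ k : ℕ, ∀ h : k < n, ε / 2 ^ k ≤ y ⟨k, h⟩ ⟨k, h⟩ := by
      intro k
      induction k with
      | zero =>
        intro h
        rw [pow_zero, div_one]
        exact hfirst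
      | succ k ih =>
        intro h
        have h1 := hadj ⟨k, by omega⟩ ⟨k + 1, h⟩ rfl
        have h2 := ih (by omega)
        have h3 : y ⟨k, by omega⟩ ⟨k, by omega⟩ / 2 ≤ y ⟨k + 1, h⟩ ⟨k + 1, h⟩ := by
          simp only [hy]
          have a1 := hdiag ⟨k, by omega⟩
          have a2 := hdiag ⟨k + 1, h⟩
          rw [mul_div_assoc]
          exact mul_le_mul_of_nonneg_left (by nlinarith) ht0.le
        rw [pow_succ, ← div_div]
        linarith
    intro j
    refine le_trans ?_ (hstep j j.isLt)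
    rw [hc]
    exact (min_le_left _ _).trans
      (div_le_div_of_nonneg_left hε.le (by positivity) (pow_le_pow_right₀ one_le_two j.isLt.le))
  have hprod : ∏ j, y j j = rdet Y :=
    ((pow_left_inj₀ (hYd ▸ hd).le (Finset.prod_nonneg fun i _ => (hy0 i).le) two_ne_zero).1
      (rdet_sq_eq heo hyt hyrow)).symm
  have hup : ∀ j, y j j ≤ (c ^ n)⁻¹ := by
    intro j
    have h1 : y j j * c ^ (n - 1) ≤ 1 := by
      calc y j j * c ^ (n - 1) = y j j * ∏ _i ∈ Finset.univ.erase j, c := by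
            rw [Finset.prod_const, Finset.card_erase_of_mem (Finset.mem_univ j), Finset.card_univ,
              Fintype.card_fin]
        _ ≤ y j j * ∏ i ∈ Finset.univ.erase j, y i i := mul_le_mul_of_nonneg_left
            (Finset.prod_le_prod (fun _ _ => hc0.le) fun i _ => hlow i) (hy0 j).le
        _ = ∏ i, y i i := Finset.mul_prod_erase _ (fun i => y i i) (Finset.mem_univ j)
        _ ≤ 1 := by rw [hprod, hYd]; exact hd1
    have hc1 : c ≤ 1 := hc ▸ min_le_right _ _
    rw [← one_div, le_div_iff₀ (pow_pos hc0 n)]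
    refine le_trans (mul_le_mul_of_nonneg_left ?_ (hy0 j).le) h1
    exact pow_le_pow_of_le_one hc0.le hc1 (Nat.sub_le n 1)
  refine ⟨γ.1 * B, hXdet ▸ hB0, hXspan, ?_, ?_⟩
  · rw [← hY]
    intro i _ l _
    refine abs_le.1 ?_
    have h1 : Y i l = ∑ j, y i j * e j l := by
      have h := congrArg (fun v : EuclideanSpace ℝ (Fin n) => v l) (hyrow i)
      simpa [euclRows] using h
    rw [h1, hR]
    refine (Finset.abs_sum_le_sum_abs _ _).trans ((Finset.sum_le_card_nsmul _ _ (c ^ n)⁻¹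
      fun j _ => ?_).trans_eq (by rw [Finset.card_univ, Fintype.card_fin, nsmul_eq_mul]))
    rw [abs_mul]
    have he1 : |e j l| ≤ 1 := by
      rw [← Real.norm_eq_abs, ← heo.norm_eq_one j]
      exact PiLp.norm_apply_le _ l
    refine (mul_le_of_le_one_right (abs_nonneg _) he1).trans ?_
    rcases lt_trichotomy i j with h | rfl | h
    · rw [hyt i j h, abs_zero]
      positivity
    · rw [abs_of_pos (hy0 i)]
      exact hup i
    · have h2 : |y i j| ≤ y j j / 2 := by
        simp only [hy]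
        rw [abs_mul, abs_of_pos ht0, mul_div_assoc]
        exact mul_le_mul_of_nonneg_left (hoff i j h) ht0.le
      linarith [hup j, hy0 j]
  · rw [← hY]
    refine ⟨?_, hYd ▸ hd1⟩
    rw [← hprod]
    refine le_of_eq_of_le ?_ (Finset.prod_le_prod (fun _ _ => hc0.le) fun i _ => hlow i)
    rw [Finset.prod_const, Finset.card_univ, Fintype.card_fin]

/-- Upper bound for the count. -/
theorem zetaProd_le_open (hn : 2 ≤ n) {E : Set (SLR n)} (hE : IsTransversal E) {O : Set (Rows n)}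
    (hO : IsOpen O) (hEO : cone E ⊆ O) (hOfin : volume O ≠ ∞) :
    zetaProd n / n ≤ volume.real O := by
  obtain ⟨m, rfl⟩ : ∃ m, n = m + 1 := ⟨n - 1, by omega⟩
  obtain ⟨C, hC0, hC⟩ := exists_thin_le (show 1 ≤ m by omega)
  have key : ∀ ε > (0 : ℝ), zetaProd (m + 1) / (m + 1 : ℕ) ≤
      volume.real O + C * ε ^ (m + 1) := by
    intro ε hε
    obtain ⟨K, hKc, hKC, hK⟩ := exists_compact_reps (n := m + 1) hε
    have hball : ∀ X ∈ K, ∃ γ : Matrix.SpecialLinearGroup (Fin (m + 1)) ℤ, ∃ r > 0,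
        closedBall (lmul (castSL γ) X) r ⊆ O := fun X hX => by
      obtain ⟨γ, hγ⟩ := exists_lmul_mem_cone hE (hKC hX)
      exact ⟨γ, nhds_basis_closedBall.mem_iff.1 (hO.mem_nhds (hEO hγ))⟩
    choose! g r hr hrO using hball
    obtain ⟨t, htK, hcover⟩ := hKc.elim_nhds_subcover
      (fun X => lmul (castSL (g X)) ⁻¹' closedBall (lmul (castSL (g X)) X) (r X)) fun X hX =>
        (continuous_lmul _).continuousAt.preimage_mem_nhds (closedBall_mem_nhds _ (hr X hX))
    obtain ⟨W, hW⟩ : ∃ W, W = ⋃ X ∈ t, closedBall (lmul (castSL (g X)) X) (r X) := ⟨_, rfl⟩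
    have hWc : IsCompact W :=
      hW ▸ t.finite_toSet.isCompact_biUnion fun X _ => isCompact_closedBall _ _
    have hWO : W ⊆ O := hW ▸ Set.iUnion₂_subset fun X hX => hrO X (htK X hX)
    have hlim := (tendsto_pointsIn hWc.isBounded hWc.measurableSet
      (hW ▸ null_frontier_balls t (fun X => lmul (castSL (g X)) X) r)).add_const
        (C * ε ^ (m + 1))
    refine (le_of_tendsto_of_tendsto (tendsto_count (by omega)) hlim ?_).trans
      (add_le_add (ENNReal.toReal_mono hOfin (measure_mono hWO)) le_rfl)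
    filter_upwards [eventually_gt_atTop 0] with N hN
    have hWf := pointsIn_finite (N := N) hWc.isBounded hN.ne'
    have hsub : ∀ L ∈ subgroupsUpTo (m + 1) (N ^ (m + 1)) \
        thinSet (m + 1) (N ^ (m + 1)) ⌊ε * N⌋₊,
        ∃ X ∈ pointsIn W N, rowSpan X = L := by
      rintro L ⟨hL, hthin⟩
      obtain ⟨X, -, hXL, hXK⟩ := hK N hN L hL hthin
      obtain ⟨Z, hZ, hmem⟩ := Set.mem_iUnion₂.1 (hcover hXK)
      refine ⟨(g Z).1 * X, ?_, ?_⟩
      · show scaled N _ ∈ W
        rw [← lmul_scaled, hW]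
        exact Set.mem_iUnion₂.2 ⟨Z, hZ, hmem⟩
      · rw [← hXL]
        refine le_antisymm (fun v hv => ?_) (fun v hv => ?_)
        · obtain ⟨z, rfl⟩ := mem_rowSpan.1 hv
          exact mem_rowSpan.2 ⟨z ᵥ* (g Z).1, by rw [Matrix.vecMul_vecMul]⟩
        · obtain ⟨z, rfl⟩ := mem_rowSpan.1 hv
          exact mem_rowSpan.2 ⟨z ᵥ* ((g Z)⁻¹).1, by rw [Matrix.vecMul_vecMul, ← Matrix.mul_assoc,
            ← Matrix.SpecialLinearGroup.coe_mul, inv_mul_cancel,
            Matrix.SpecialLinearGroup.coe_one, one_mul]⟩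
    have h1 : (subgroupsUpTo (m + 1) (N ^ (m + 1))).ncard ≤ (pointsIn W N).ncard +
        (thinSet (m + 1) (N ^ (m + 1)) ⌊ε * N⌋₊).ncard := by
      refine (Set.ncard_le_ncard_sdiff_add_ncard _ _ ((ncard_subgroupsUpTo _ _).1.subset
        fun L h => h.1)).trans (add_le_add ?_ le_rfl)
      refine (Set.ncard_le_ncard (t := rowSpan '' pointsIn W N) ?_ (hWf.image _)).trans
        (Set.ncard_image_le hWf)
      exact fun L hL => hsub L hL
    have hN' : (0 : ℝ) < (N : ℝ) ^ ((m + 1) * (m + 1)) := pow_pos (Nat.cast_pos.2 hN) _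
    rw [div_add' _ _ _ hN'.ne']
    refine div_le_div_of_nonneg_right ((Nat.cast_le.2 h1).trans ?_) hN'.le
    rw [Nat.cast_add]
    refine add_le_add le_rfl ((hC _ _).trans ?_)
    have h2 : ((⌊ε * N⌋₊ : ℕ) : ℝ) ≤ ε * N := Nat.floor_le (by positivity)
    calc C * (((N ^ (m + 1) : ℕ) : ℝ)) ^ m * ((⌊ε * N⌋₊ : ℕ) : ℝ) ^ (m + 1)
        ≤ C * (((N ^ (m + 1) : ℕ) : ℝ)) ^ m * (ε * N) ^ (m + 1) :=
          mul_le_mul_of_nonneg_left (pow_le_pow_left₀ (Nat.cast_nonneg _) h2 _) (by positivity)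
      _ = C * ε ^ (m + 1) * (N : ℝ) ^ ((m + 1) * (m + 1)) := by
          rw [Nat.cast_pow, ← pow_mul, mul_pow,
            show (m + 1) * (m + 1) = (m + 1) * m + (m + 1) by ring,
            pow_add]
          ring
  have h0 : Tendsto (fun k : ℕ => volume.real O + C * (1 / ((k : ℝ) + 1)) ^ (m + 1)) atTop
      (𝓝 (volume.real O)) := by
    simpa using ((tendsto_one_div_add_atTop_nhds_zero_nat.pow (m + 1)).const_mul C).const_add
      (volume.real O)
  exact ge_of_tendsto' h0 fun k => key _ (by positivity)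

variable [MeasurableSpace (SLR n)] [BorelSpace (SLR n)]

theorem measurableSet_cone [NeZero n] {E : Set (SLR n)} (hE : MeasurableSet E) :
    MeasurableSet (cone E) := by
  rw [cone_eq]
  exact (measurable_proj hE).inter measurableSet_unitCone

theorem volume_cone_one [NeZero n] (hn : n = 1) {E : Set (SLR n)} (hE : IsTransversal E) :
    volume (cone E) = 1 := by
  subst hn
  have hsub : Subsingleton (SLR 1) := ⟨fun a b => Subtype.ext (Matrix.ext fun i j => by
    have ha := a.2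
    have hb := b.2
    rw [Matrix.det_fin_one] at ha hb
    rw [Fin.eq_zero i, Fin.eq_zero j, ha, hb])⟩
  have e : cone E = Set.univ.pi fun _ => Set.univ.pi fun _ => Set.Ioc (0 : ℝ) 1 := by
    rw [cone_eq]
    ext X
    obtain ⟨γ, hγ, -⟩ := hE (proj X)
    have hp : proj X ∈ E := Subsingleton.elim (γ • proj X) (proj X) ▸ hγ
    simp [hp, unitCone, rdet, Matrix.det_fin_one, Fin.forall_fin_one]
  rw [e, volume_pi_pi]
  simp [volume_pi_pi]

/-- **Siegel's volume formula.** -/
theorem volume_cone_eq [NeZero n] {E : Set (SLR n)} (hEm : MeasurableSet E)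
    (hE : IsTransversal E) : volume (cone E) = ENNReal.ofReal (zetaProd n / n) := by
  rcases eq_or_lt_of_le (show 1 ≤ n from NeZero.pos n) with h | h
  · rw [volume_cone_one h.symm hE, ← h]
    simp [zetaProd]
  haveI : MeasurableConstSMul (Gamma n) (SLR n) :=
    ⟨fun γ => (continuous_const_mul (γ : SLR n)).measurable⟩
  haveI : SMulInvariantMeasure (Gamma n) (SLR n) (coneMeasure n) :=
    ⟨fun γ s _ => measure_preimage_mul (coneMeasure n) (γ : SLR n) s⟩
  have hfin : volume (cone E) ≠ ∞ := by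
    obtain ⟨E', -, hE', -, hlt⟩ := exists_fundamentalDomain_finite (coneMeasure n)
    rw [← coneMeasure_apply hEm, (IsFundamentalDomain.mk' hEm.nullMeasurableSet hE).measure_eq hE']
    exact hlt.ne
  rw [← ENNReal.ofReal_toReal hfin]
  refine congrArg _ (le_antisymm ?_ ?_)
  · refine le_of_forall_pos_le_add fun δ hδ => ?_
    obtain ⟨K, hKsub, hKc, hKlt⟩ := (measurableSet_cone hEm).exists_isCompact_lt_add hfin
      (show ENNReal.ofReal δ ≠ 0 by simpa using hδ)
    have hK1 : (volume (cone E)).toReal ≤ volume.real K + δ := by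
      refine (ENNReal.toReal_mono (by simp [hKc.measure_lt_top.ne]) hKlt.le).trans_eq ?_
      rw [ENNReal.toReal_add hKc.measure_lt_top.ne ENNReal.ofReal_ne_top,
        ENNReal.toReal_ofReal hδ.le]
      rfl
    refine hK1.trans (add_le_add ?_ le_rfl)
    have hscale : ∀ t : ℝ, 0 < t → t < 1 → t ^ (n * n) * volume.real K ≤ zetaProd n / n := by
      intro t ht ht'
      refine le_of_eq_of_le ?_ (volume_compact_le hE (hKc.smul t) ?_)
      · rw [Measure.real, Measure.real, Measure.addHaar_smul, ENNReal.toReal_mul,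
          ENNReal.toReal_ofReal (abs_nonneg _), abs_of_pos (pow_pos ht _)]
        congr 2
        simp [Module.finrank_pi_fintype]
      · rintro _ ⟨X, hX, rfl⟩
        exact cone_smul_mem (hKsub hX) ht ht'
    have hlim : Tendsto (fun t : ℝ => t ^ (n * n) * volume.real K) (𝓝[<] 1)
        (𝓝 (volume.real K)) := by
      have hcont : Continuous fun t : ℝ => t ^ (n * n) * volume.real K := by fun_prop
      simpa using (hcont.tendsto 1).mono_left nhdsWithin_le_nhds
    refine le_of_tendsto hlim ?_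
    filter_upwards [Ioo_mem_nhdsLT zero_lt_one] with t ht
    exact hscale t ht.1 ht.2
  · refine le_of_forall_pos_le_add fun δ hδ => ?_
    haveI : (volume : Measure (Rows n)).Regular :=
      Measure.Regular.of_sigmaCompactSpace_of_isLocallyFiniteMeasure _
    obtain ⟨O, hEO, hO, hOlt⟩ := (cone E).exists_isOpen_lt_add hfin
      (show ENNReal.ofReal δ ≠ 0 by simpa using hδ)
    refine (zetaProd_le_open h hE hO hEO hOlt.ne_top).trans ?_
    refine (ENNReal.toReal_mono (by simp [hfin]) hOlt.le).trans_eq ?_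
    rw [ENNReal.toReal_add hfin ENNReal.ofReal_ne_top, ENNReal.toReal_ofReal hδ.le]

end FA.SLnVolume

end
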