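import Fermat.Agent.SLnLattice.Domain
import Mathlib.Analysis.BoxIntegral.UnitPartition
import Mathlib.LinearAlgebra.FreeModule.Finite.CardQuotient
import Mathlib.LinearAlgebra.Matrix.ToLinearEquiv
import Mathlib.LinearAlgebra.Determinant

/-!
# Integral matrices and the subgroups spanned by their rows

The orbits of the unimodular group on integral matrices of positive determinant `d` are the
subgroups of index `d`; the integral matrices in a dilate of a Jordan measurable set are counted
by its volume.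
-/

set_option autoImplicit false

noncomputable section

open Matrix MeasureTheory Filter Topology Bornology
open scoped Pointwise
open FA.SLnLattice

namespace FA.SLnVolume

variable {n : ℕ}

/-- The map `v ↦ v X`. -/
def rowMap (X : Matrix (Fin n) (Fin n) ℤ) : (Fin n → ℤ) →ₗ[ℤ] (Fin n → ℤ) := Matrix.toLin' Xᵀ

theorem rowMap_apply (X : Matrix (Fin n) (Fin n) ℤ) (v : Fin n → ℤ) : rowMap X v = v ᵥ* X := by
  rw [rowMap, Matrix.toLin'_apply, Matrix.mulVec_transpose]

/-- The subgroup spanned by the rows. -/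
def rowSpan (X : Matrix (Fin n) (Fin n) ℤ) : AddSubgroup (Fin n → ℤ) :=
  (LinearMap.range (rowMap X)).toAddSubgroup

theorem mem_rowSpan {X : Matrix (Fin n) (Fin n) ℤ} {v : Fin n → ℤ} :
    v ∈ rowSpan X ↔ ∃ z : Fin n → ℤ, z ᵥ* X = v := by
  simp only [rowSpan, Submodule.mem_toAddSubgroup, LinearMap.mem_range, rowMap_apply]

theorem row_mem_rowSpan (X : Matrix (Fin n) (Fin n) ℤ) (i : Fin n) : X i ∈ rowSpan X :=
  mem_rowSpan.2 ⟨Pi.single i 1, by rw [Matrix.single_one_vecMul]; rfl⟩

theorem rowMap_injective {X : Matrix (Fin n) (Fin n) ℤ} (hX : X.det ≠ 0) :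
    Function.Injective (rowMap X) := fun v w h => by
  rw [rowMap_apply, rowMap_apply] at h
  exact sub_eq_zero.1 (Matrix.eq_zero_of_vecMul_eq_zero hX (by rw [Matrix.sub_vecMul, h, sub_self]))

theorem index_rowSpan {X : Matrix (Fin n) (Fin n) ℤ} (hX : X.det ≠ 0) :
    (rowSpan X).index = X.det.natAbs := by
  have h := Submodule.natAbs_det_equiv (LinearMap.range (rowMap X))
    (LinearEquiv.ofInjective (rowMap X) (rowMap_injective hX))
  have e : (LinearMap.range (rowMap X)).subtype ∘ₗ AddMonoidHom.toIntLinearMap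
      (LinearEquiv.ofInjective (rowMap X) (rowMap_injective hX) :
        (Fin n → ℤ) →+ LinearMap.range (rowMap X)) = rowMap X := by
    ext v
    rfl
  rw [e, rowMap, LinearMap.det_toLin', Matrix.det_transpose] at h
  exact h.symm

theorem exists_matrix {L : AddSubgroup (Fin n → ℤ)} (hL : L.index ≠ 0) :
    ∃ X : Matrix (Fin n) (Fin n) ℤ, X.det = L.index ∧ rowSpan X = L := by
  obtain ⟨k, b⟩ := Submodule.basisOfPid (Pi.basisFun ℤ (Fin n)) L.toIntSubmodule
  have hk : k = n := by
    have h1 := (b.linearIndependent.map' (Submodule.subtype _)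
      (Submodule.ker_subtype _)).fintype_card_le_finrank
    obtain ⟨w, hw⟩ : ∃ w : Fin n → L.toIntSubmodule,
        ∀ i, (w i : Fin n → ℤ) = L.index • Pi.single i 1 :=
      ⟨fun i => ⟨_, L.nsmul_index_mem _⟩, fun _ => rfl⟩
    have hwli : LinearIndependent ℤ w := by
      rw [Fintype.linearIndependent_iff]
      intro c hc i
      have h2 := congrArg (fun x : L.toIntSubmodule => (x : Fin n → ℤ) i) hc
      simpa [hw, Finset.sum_apply, Pi.single_apply, hL] using h2
    have h3 := hwli.fintype_card_le_finrank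
    rw [Module.finrank_eq_card_basis b] at h3
    simp at h1 h3
    omega
  subst hk
  obtain ⟨X, hX⟩ : ∃ X : Matrix (Fin k) (Fin k) ℤ, X = Matrix.of fun i => (b i : Fin k → ℤ) :=
    ⟨_, rfl⟩
  have hcomb : ∀ z : Fin k → ℤ, z ᵥ* X = ((∑ i, z i • b i : L.toIntSubmodule) : Fin k → ℤ) := by
    intro z
    funext j
    simp [Matrix.vecMul, dotProduct, hX, Finset.sum_apply]
  have hspan : rowSpan X = L := by
    ext v
    rw [mem_rowSpan]
    constructor
    · rintro ⟨z, rfl⟩
      rw [hcomb]
      exact (∑ i, z i • b i : L.toIntSubmodule).2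
    · intro hv
      exact ⟨fun i => b.repr ⟨v, hv⟩ i, by rw [hcomb, b.sum_repr]⟩
  have hdet : X.det ≠ 0 := fun h => by
    obtain ⟨z, hz0, hz⟩ := Matrix.exists_vecMul_eq_zero_iff.2 h
    rw [hcomb, ← Submodule.coe_zero (p := L.toIntSubmodule), Subtype.coe_inj] at hz
    exact hz0 (funext fun i => Fintype.linearIndependent_iff.1 b.linearIndependent _ hz i)
  have habs := index_rowSpan hdet
  rw [hspan] at habs
  rcases Int.natAbs_eq X.det with h | h
  · exact ⟨X, by rw [h, habs], hspan⟩
  · rcases k with - | k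
    · simp at h
    obtain ⟨s, hs⟩ : ∃ s : Fin (k + 1) → ℤ, s = Function.update (1 : Fin (k + 1) → ℤ) 0 (-1) :=
      ⟨_, rfl⟩
    have hs2 : ∀ i, s i * s i = 1 := fun i => by
      rw [hs]
      rcases eq_or_ne i 0 with rfl | hi <;> simp [*]
    refine ⟨Matrix.diagonal s * X, ?_, ?_⟩
    · rw [Matrix.det_mul, Matrix.det_diagonal, hs, Finset.prod_update_of_mem (Finset.mem_univ _), h,
        habs]
      simp
    · rw [← hspan]
      ext v
      simp only [mem_rowSpan]
      constructor
      · rintro ⟨z, rfl⟩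
        exact ⟨z ᵥ* Matrix.diagonal s, by rw [Matrix.vecMul_vecMul]⟩
      · rintro ⟨z, rfl⟩
        refine ⟨z ᵥ* Matrix.diagonal s, ?_⟩
        rw [Matrix.vecMul_vecMul, ← Matrix.mul_assoc, Matrix.diagonal_mul_diagonal,
          show (fun i => s i * s i) = 1 from funext hs2, Matrix.diagonal_one', one_mul]

theorem exists_unimodular_eq {X Y : Matrix (Fin n) (Fin n) ℤ} (hX : X.det ≠ 0)
    (hdet : Y.det = X.det) (h : rowSpan Y = rowSpan X) :
    ∃ γ : Matrix.SpecialLinearGroup (Fin n) ℤ, Y = γ.1 * X := by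
  have hrow : ∀ i, ∃ z : Fin n → ℤ, z ᵥ* X = Y i := fun i =>
    mem_rowSpan.1 (h ▸ row_mem_rowSpan Y i)
  choose A hA using hrow
  have e : Y = Matrix.of A * X := by
    ext i j
    exact (congrFun (hA i) j).symm
  refine ⟨⟨Matrix.of A, ?_⟩, e⟩
  have h2 := congrArg Matrix.det e
  rw [Matrix.det_mul, hdet] at h2
  exact (mul_eq_right₀ hX).1 h2.symm

/-- The element of `SL n ℝ` of an integral matrix. -/
abbrev castSL (γ : Matrix.SpecialLinearGroup (Fin n) ℤ) : SLR n :=
  Matrix.SpecialLinearGroup.map (Int.castRingHom ℝ) γ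

theorem castSL_injective : Function.Injective (castSL (n := n)) := fun a b h =>
  Subtype.ext (Matrix.ext fun i j => Int.cast_injective
    (congrArg (fun g : SLR n => g i j) h : ((a i j : ℤ) : ℝ) = ((b i j : ℤ) : ℝ)))

/-- An integral matrix divided by `N`. -/
def scaled (N : ℕ) (X : Matrix (Fin n) (Fin n) ℤ) : Rows n := fun i j => (X i j : ℝ) / N

theorem lmul_scaled (N : ℕ) (γ : Matrix.SpecialLinearGroup (Fin n) ℤ)
    (X : Matrix (Fin n) (Fin n) ℤ) : lmul (castSL γ) (scaled N X) = scaled N (γ.1 * X) := by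
  funext i j
  simp [lmul, scaled, Matrix.mul_apply, Finset.sum_div, mul_div_assoc]

theorem rdet_scaled (N : ℕ) (X : Matrix (Fin n) (Fin n) ℤ) :
    rdet (scaled N X) = (X.det : ℝ) / (N : ℝ) ^ n := by
  have e : Matrix.of (scaled N X) = ((N : ℝ)⁻¹) • X.map (Int.castRingHom ℝ) := by
    ext i j
    simp [scaled, div_eq_inv_mul]
  rw [rdet, e, Matrix.det_smul, Fintype.card_fin, inv_pow, ← RingHom.mapMatrix_apply,
    ← RingHom.map_det, div_eq_inv_mul]
  rfl

theorem scaled_injective {N : ℕ} (hN : N ≠ 0) : Function.Injective (scaled (n := n) N) :=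
  fun X Y h => by
    ext i j
    have := congrFun (congrFun h i) j
    simpa [scaled, hN] using this

/-- The matrix of a function of pairs. -/
def uncurryRows (X : Rows n) : Fin n × Fin n → ℝ := fun p => X p.1 p.2

/-- The pairs form of `Rows` as a homeomorphism. -/
def uncurryHomeo : Rows n ≃ₜ (Fin n × Fin n → ℝ) where
  toFun := uncurryRows
  invFun f i j := f (i, j)
  left_inv _ := rfl
  right_inv _ := rfl
  continuous_toFun := by unfold uncurryRows; fun_prop
  continuous_invFun := by fun_prop

theorem measurePreserving_uncurry :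
    MeasurePreserving (uncurryHomeo (n := n)) volume volume := by
  refine ⟨uncurryHomeo.continuous.measurable, (Measure.pi_eq fun s hs => ?_).symm⟩
  rw [Measure.map_apply uncurryHomeo.continuous.measurable (MeasurableSet.univ_pi hs)]
  have e : uncurryHomeo (n := n) ⁻¹' Set.univ.pi s =
      Set.univ.pi fun i => Set.univ.pi fun j => s (i, j) := by
    ext X
    simp [uncurryHomeo, uncurryRows, Prod.forall]
  rw [e, volume_pi_pi, Fintype.prod_prod_type]
  exact Finset.prod_congr rfl fun i _ => volume_pi_pi _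

/-- The integral matrices whose `N`-th part is in `W`. -/
def pointsIn (W : Set (Rows n)) (N : ℕ) : Set (Matrix (Fin n) (Fin n) ℤ) :=
  {X | scaled N X ∈ W}

theorem pointsIn_finite {W : Set (Rows n)} (hW : IsBounded W) {N : ℕ} (hN : N ≠ 0) :
    (pointsIn W N).Finite := by
  obtain ⟨R, hR⟩ := hW.exists_norm_le
  refine (Set.Finite.pi fun _ : Fin n => Set.Finite.pi fun _ : Fin n =>
    Set.finite_Icc (-⌈R * N⌉) ⌈R * N⌉).subset fun X hX i _ j _ => ?_
  have h := ((norm_le_pi_norm (scaled N X i) j).trans (norm_le_pi_norm _ i)).trans (hR _ hX)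
  rw [scaled, Real.norm_eq_abs, abs_div, Nat.abs_cast,
    div_le_iff₀ (Nat.cast_pos.2 (Nat.pos_of_ne_zero hN))] at h
  have h1 := h.trans (Int.le_ceil _)
  rw [abs_le] at h1
  exact ⟨by exact_mod_cast h1.1, by exact_mod_cast h1.2⟩

/-- **Integral matrices in dilates.** -/
theorem tendsto_pointsIn {W : Set (Rows n)} (hb : IsBounded W) (hm : MeasurableSet W)
    (hf : volume (frontier W) = 0) :
    Tendsto (fun N : ℕ => ((pointsIn W N).ncard : ℝ) / (N : ℝ) ^ (n * n)) atTop
      (𝓝 (volume.real W)) := by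
  obtain ⟨S, hS⟩ : ∃ S, S = uncurryHomeo (n := n) '' W := ⟨_, rfl⟩
  have hSm : MeasurableSet S := hS ▸ uncurryHomeo.toMeasurableEquiv.measurableSet_image.2 hm
  have hSb : IsBounded S := by
    obtain ⟨R, hR⟩ := hb.exists_norm_le
    refine (isBounded_iff_forall_norm_le (s := S)).2 ⟨max R 0, fun f hf => ?_⟩
    rw [hS] at hf
    obtain ⟨X, hX, rfl⟩ := hf
    refine (pi_norm_le_iff_of_nonneg (le_max_right _ _)).2 fun p => ?_
    exact (((norm_le_pi_norm (X p.1) p.2).trans (norm_le_pi_norm X p.1)).trans (hR X hX)).trans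
      (le_max_left _ _)
  have hSf : volume (frontier S) = 0 := by
    have hc : IsClosed (uncurryHomeo (n := n) '' frontier W) :=
      uncurryHomeo.isClosed_image.2 isClosed_frontier
    rw [hS, ← uncurryHomeo.image_frontier,
      ← measurePreserving_uncurry.measure_preimage hc.measurableSet.nullMeasurableSet,
      Set.preimage_image_eq _ uncurryHomeo.injective, hf]
  have h := tendsto_card_div_pow_atTop_volume S hSb hSm hSf
  have hvol : volume.real S = volume.real W := by
    rw [Measure.real, Measure.real, ← measurePreserving_uncurry.measure_preimage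
      hSm.nullMeasurableSet, hS, Set.preimage_image_eq _ uncurryHomeo.injective]
  rw [hvol, Fintype.card_prod, Fintype.card_fin] at h
  refine h.congr' ?_
  filter_upwards [eventually_gt_atTop 0] with N hN
  have hN' : (N : ℝ) ≠ 0 := Nat.cast_ne_zero.2 (by omega)
  have hinj : Function.Injective fun X : Matrix (Fin n) (Fin n) ℤ => uncurryRows (scaled N X) :=
    uncurryHomeo.injective.comp (scaled_injective (by omega))
  congr 2
  rw [Nat.card_coe_set_eq, ← Set.ncard_image_of_injective _ hinj]
  congr 1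
  ext y
  constructor
  · rintro ⟨hyS, v, hv, rfl⟩
    rw [SetLike.mem_coe, Module.Basis.mem_span_iff_repr_mem] at hv
    choose z hz using hv
    have e : uncurryRows (scaled N fun i j => z (i, j)) = (N : ℝ)⁻¹ • v := by
      funext p
      have := hz p
      simp only [Pi.basisFun_repr] at this
      simp [uncurryRows, scaled, ← this, div_eq_inv_mul]
    refine ⟨fun i j => z (i, j), ?_, e⟩
    rw [hS] at hyS
    obtain ⟨X, hX, hXe⟩ := hyS
    have : scaled N (fun i j => z (i, j)) = X := uncurryHomeo.injective (e.trans hXe.symm)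
    show scaled N _ ∈ W
    rwa [this]
  · rintro ⟨X, hX, rfl⟩
    refine ⟨hS ▸ ⟨scaled N X, hX, rfl⟩, fun p => (X p.1 p.2 : ℝ), ?_, ?_⟩
    · rw [SetLike.mem_coe, Module.Basis.mem_span_iff_repr_mem]
      exact fun p => ⟨X p.1 p.2, by simp⟩
    · funext p
      simp [uncurryRows, scaled, div_eq_inv_mul]

end FA.SLnVolume

end
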