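import Fermat.Agent.SLnVolume.Subgroups
import Mathlib.Algebra.Order.Floor.Semifield
import Mathlib.Analysis.Normed.Group.Tannery
import Mathlib.Analysis.PSeries
import Mathlib.Analysis.SpecificLimits.Basic
import Mathlib.NumberTheory.LSeries.RiemannZeta

/-!
# The number of subgroups of index at most `D`

`∑_{d ≤ x} d ^ s a n d ~ ζ(2) ⋯ ζ(n) x ^ (n + s) / (n + s)`, by induction on `n` and dominated
convergence.
-/

set_option autoImplicit false

noncomputable section

open Finset Filter Topology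

namespace FA.SLnVolume

/-- The product `ζ(2) ⋯ ζ(n)`. -/
def zetaProd (n : ℕ) : ℝ := ∏ k ∈ Finset.Icc 2 n, (riemannZeta k).re

/-- The weighted partial sums of the counts. -/
def moment (n s x : ℕ) : ℝ := ∑ f ∈ Finset.Icc 1 x, (f : ℝ) ^ s * idxCount n f

theorem tsum_eq_zeta {k : ℕ} (hk : 2 ≤ k) :
    ∑' e : ℕ, 1 / (e : ℝ) ^ k = (riemannZeta k).re := by
  rw [zeta_nat_eq_tsum_of_gt_one hk,
    show (∑' e : ℕ, 1 / (e : ℂ) ^ k) = ((∑' e : ℕ, 1 / (e : ℝ) ^ k : ℝ) : ℂ) by
      rw [Complex.ofReal_tsum]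
      exact tsum_congr fun e => by push_cast; rfl, Complex.ofReal_re]

theorem zetaProd_succ {n : ℕ} (hn : 1 ≤ n) :
    zetaProd (n + 1) = (∑' e : ℕ, 1 / (e : ℝ) ^ (n + 1)) * zetaProd n := by
  rw [tsum_eq_zeta (by omega), zetaProd, zetaProd,
    Finset.prod_Icc_succ_top (by omega), mul_comm]

theorem zetaProd_pos : ∀ n : ℕ, 0 < zetaProd n
  | 0 => by simp [zetaProd]
  | 1 => by simp [zetaProd]
  | n + 2 => by
    rw [zetaProd_succ (by omega)]
    refine mul_pos ?_ (zetaProd_pos (n + 1))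
    exact (Real.summable_one_div_nat_pow.2 (by omega)).tsum_pos (fun e => by positivity) 1 (by simp)

theorem sum_antidiagonal_swap (F : ℕ → ℕ → ℝ) (x : ℕ) :
    ∑ d ∈ Finset.Icc 1 x, ∑ p ∈ d.divisorsAntidiagonal, F p.1 p.2 =
      ∑ e ∈ Finset.Icc 1 x, ∑ f ∈ Finset.Icc 1 (x / e), F e f := by
  rw [Finset.sum_sigma', Finset.sum_sigma']
  refine Finset.sum_bij' (fun q _ => ⟨q.2.1, q.2.2⟩) (fun q _ => ⟨q.1 * q.2, (q.1, q.2)⟩)
    ?_ ?_ ?_ ?_ ?_
  · rintro ⟨d, e, f⟩ h
    simp only [Finset.mem_sigma, Finset.mem_Icc, Nat.mem_divisorsAntidiagonal] at h ⊢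
    obtain ⟨⟨h1, h2⟩, rfl, h3⟩ := h
    have he : 1 ≤ e := Nat.one_le_iff_ne_zero.2 fun h => h3 (by rw [h, zero_mul])
    have hf : 1 ≤ f := Nat.one_le_iff_ne_zero.2 fun h => h3 (by rw [h, mul_zero])
    refine ⟨⟨he, ?_⟩, hf, (Nat.le_div_iff_mul_le he).2 (by rw [mul_comm]; exact h2)⟩
    exact le_trans (Nat.le_mul_of_pos_right e hf) h2
  · rintro ⟨e, f⟩ h
    simp only [Finset.mem_sigma, Finset.mem_Icc, Nat.mem_divisorsAntidiagonal] at h ⊢
    obtain ⟨⟨h1, h2⟩, h3, h4⟩ := h
    have := (Nat.le_div_iff_mul_le h1).1 h4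
    refine ⟨⟨Nat.mul_pos h1 h3, by rw [mul_comm]; exact this⟩, ?_⟩
    simp [(Nat.mul_pos h1 h3).ne']
  · rintro ⟨d, e, f⟩ h
    simp only [Finset.mem_sigma, Nat.mem_divisorsAntidiagonal] at h
    obtain ⟨-, rfl, -⟩ := h
    rfl
  · rintro ⟨e, f⟩ h
    rfl
  · rintro ⟨d, e, f⟩ h
    rfl

theorem moment_succ (n s x : ℕ) :
    moment (n + 1) s x = ∑ e ∈ Finset.Icc 1 x, (e : ℝ) ^ s * moment n (s + 1) (x / e) := by
  rw [moment]
  have h1 : ∀ d ∈ Finset.Icc 1 x, (d : ℝ) ^ s * idxCount (n + 1) d =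
      ∑ p ∈ d.divisorsAntidiagonal, (p.1 : ℝ) ^ s * ((p.2 : ℝ) ^ (s + 1) * idxCount n p.2) := by
    intro d hd
    rw [idxCount_succ n (by have := (Finset.mem_Icc.1 hd).1; omega), Nat.cast_sum, Finset.mul_sum]
    refine Finset.sum_congr rfl fun p hp => ?_
    rw [← (Nat.mem_divisorsAntidiagonal.1 hp).1]
    push_cast
    ring
  rw [Finset.sum_congr rfl h1, sum_antidiagonal_swap fun e f =>
    (e : ℝ) ^ s * ((f : ℝ) ^ (s + 1) * idxCount n f)]
  simp only [moment, Finset.mul_sum]

theorem idxCount_one {f : ℕ} (hf : f ≠ 0) : idxCount 1 f = 1 := by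
  rw [idxCount_succ 0 hf, Finset.sum_eq_single (f, 1)]
  · simp [idxCount_zero]
  · rintro ⟨a, b⟩ hp hne
    have hb : b ≠ 1 := fun h => hne (by
      obtain ⟨he, -⟩ := Nat.mem_divisorsAntidiagonal.1 hp
      simp only at he
      rw [h, mul_one] at he
      rw [he, h])
    simp [idxCount_zero, hb]
  · intro h
    exact absurd (Nat.mem_divisorsAntidiagonal.2 ⟨mul_one f, hf⟩) h

theorem sum_pow_bounds (s : ℕ) : ∀ x : ℕ,
    (x : ℝ) ^ (s + 1) ≤ (s + 1) * ∑ f ∈ Finset.Icc 1 x, (f : ℝ) ^ s ∧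
      (s + 1) * ∑ f ∈ Finset.Icc 1 x, (f : ℝ) ^ s + 1 ≤ (x + 1 : ℝ) ^ (s + 1)
  | 0 => by simp
  | x + 1 => by
    obtain ⟨h1, h2⟩ := sum_pow_bounds s x
    rw [Finset.sum_Icc_succ_top (by omega), mul_add]
    have key : ∀ a : ℝ, 0 ≤ a →
        (s + 1 : ℝ) * a ^ s ≤ (a + 1) ^ (s + 1) - a ^ (s + 1) ∧
          (a + 1) ^ (s + 1) - a ^ (s + 1) ≤ (s + 1 : ℝ) * (a + 1) ^ s := by
      intro a ha
      have e := (Commute.all (a + 1) a).mul_geom_sum₂ (s + 1)
      rw [add_sub_cancel_left, one_mul] at e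
      rw [← e]
      constructor
      · calc (s + 1 : ℝ) * a ^ s = ∑ i ∈ Finset.range (s + 1), a ^ i * a ^ (s - i) := by
              rw [Finset.sum_congr rfl fun i hi => by
                rw [← pow_add, Nat.add_sub_cancel' (by
                  have := Finset.mem_range.1 hi; omega)], Finset.sum_const, Finset.card_range,
                nsmul_eq_mul]
              push_cast
              ring
          _ ≤ _ := Finset.sum_le_sum fun i _ => by
              rw [show s + 1 - 1 - i = s - i by omega]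
              exact mul_le_mul_of_nonneg_right (pow_le_pow_left₀ ha (by linarith) i)
                (pow_nonneg ha _)
      · calc _ ≤ ∑ i ∈ Finset.range (s + 1), (a + 1) ^ i * (a + 1) ^ (s - i) :=
              Finset.sum_le_sum fun i _ => by
                rw [show s + 1 - 1 - i = s - i by omega]
                exact mul_le_mul_of_nonneg_left (pow_le_pow_left₀ ha (by linarith) _)
                  (pow_nonneg (by linarith) _)
          _ = (s + 1 : ℝ) * (a + 1) ^ s := by
              rw [Finset.sum_congr rfl fun i hi => by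
                rw [← pow_add, Nat.add_sub_cancel' (by
                  have := Finset.mem_range.1 hi; omega)], Finset.sum_const, Finset.card_range,
                nsmul_eq_mul]
              push_cast
              ring
    push_cast
    constructor
    · have := (key x (Nat.cast_nonneg x)).2
      linarith
    · have := (key (x + 1) (by positivity)).1
      linarith

theorem tendsto_moment_one (s : ℕ) :
    Tendsto (fun x : ℕ => moment 1 s x / (x : ℝ) ^ (1 + s)) atTop (𝓝 (1 / ((1 + s : ℕ) : ℝ))) := by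
  have e : ∀ x, moment 1 s x = ∑ f ∈ Finset.Icc 1 x, (f : ℝ) ^ s := fun x =>
    Finset.sum_congr rfl fun f hf => by
      rw [idxCount_one (by have := (Finset.mem_Icc.1 hf).1; omega), Nat.cast_one, mul_one]
  have hlim : Tendsto (fun x : ℕ => (1 / ((1 + s : ℕ) : ℝ)) * (1 + 1 / (x : ℝ)) ^ (1 + s)) atTop
      (𝓝 (1 / ((1 + s : ℕ) : ℝ))) := by
    simpa using ((tendsto_one_div_atTop_nhds_zero_nat.const_add (1 : ℝ)).pow (1 + s)).const_mul
      (1 / ((1 + s : ℕ) : ℝ))
  refine tendsto_of_tendsto_of_tendsto_of_le_of_le' tendsto_const_nhds hlim ?_ ?_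
  · filter_upwards [eventually_gt_atTop 0] with x hx
    have hx' : (0 : ℝ) < x := Nat.cast_pos.2 hx
    rw [e, div_le_div_iff₀ (by positivity) (by positivity), one_mul, add_comm 1 s]
    push_cast
    nlinarith [(sum_pow_bounds s x).1]
  · filter_upwards [eventually_gt_atTop 0] with x hx
    have hx' : (0 : ℝ) < x := Nat.cast_pos.2 hx
    rw [e, one_add_div hx'.ne', div_pow, mul_div_assoc', add_comm 1 s]
    refine div_le_div_of_nonneg_right ?_ (by positivity)
    rw [div_mul_eq_mul_div, one_mul, le_div_iff₀ (by positivity)]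
    push_cast
    nlinarith [(sum_pow_bounds s x).2]

theorem exists_moment_le {n s : ℕ} {l : ℝ}
    (h : Tendsto (fun x : ℕ => moment n s x / (x : ℝ) ^ (n + s)) atTop (𝓝 l)) :
    ∃ C : ℝ, 0 ≤ C ∧ ∀ x : ℕ, moment n s x ≤ C * (x : ℝ) ^ (n + s) := by
  obtain ⟨C, hC⟩ := h.bddAbove_range
  refine ⟨max C 0, le_max_right _ _, fun x => ?_⟩
  rcases Nat.eq_zero_or_pos x with rfl | hx
  · simp [moment]
    positivity
  · have h1 := (hC ⟨x, rfl⟩).trans (le_max_left C 0)
    rwa [div_le_iff₀ (by positivity)] at h1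

theorem tendsto_natDiv_div {e : ℕ} :
    Tendsto (fun x : ℕ => ((x / e : ℕ) : ℝ) / x) atTop (𝓝 (1 / (e : ℝ))) := by
  have h := (tendsto_nat_floor_mul_div_atTop (R := ℝ) (a := 1 / (e : ℝ)) (by positivity)).comp
    tendsto_natCast_atTop_atTop
  refine h.congr fun x => ?_
  rw [Function.comp_apply, one_div_mul_eq_div, Nat.floor_div_eq_div]

/-- **The asymptotic formula.** -/
theorem tendsto_moment : ∀ (n : ℕ), 1 ≤ n → ∀ s : ℕ,
    Tendsto (fun x : ℕ => moment n s x / (x : ℝ) ^ (n + s)) atTop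
      (𝓝 (zetaProd n / ((n + s : ℕ) : ℝ))) := by
  intro n hn
  induction n, hn using Nat.le_induction with
  | base =>
    intro s
    simpa [zetaProd] using tendsto_moment_one s
  | succ n hn ih =>
    intro s
    obtain ⟨C, hC0, hC⟩ := exists_moment_le (ih (s + 1))
    obtain ⟨L, hL⟩ : ∃ L, L = zetaProd n / ((n + (s + 1) : ℕ) : ℝ) := ⟨_, rfl⟩
    obtain ⟨term, hterm⟩ : ∃ term : ℕ → ℕ → ℝ, term = fun (x e : ℕ) => if e ∈ Finset.Icc 1 x then
        (e : ℝ) ^ s * moment n (s + 1) (x / e) / (x : ℝ) ^ (n + 1 + s) else 0 := ⟨_, rfl⟩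
    have hsum : ∀ x, ∑' e, term x e = moment (n + 1) s x / (x : ℝ) ^ (n + 1 + s) := fun x => by
      rw [tsum_eq_sum (s := Finset.Icc 1 x) fun e he => by rw [hterm]; simp [he], moment_succ,
        Finset.sum_div]
      exact Finset.sum_congr rfl fun e he => by rw [hterm]; simp [he]
    have hlim : Tendsto (fun x => ∑' e, term x e) atTop
        (𝓝 (∑' e : ℕ, L * (1 / (e : ℝ) ^ (n + 1)))) := by
      refine tendsto_tsum_of_dominated_convergence
        (bound := fun e : ℕ => C * (1 / (e : ℝ) ^ (n + 1)))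
        ((Real.summable_one_div_nat_pow.2 (by omega)).mul_left C) (fun e => ?_)
        (Eventually.of_forall fun x e => ?_)
      · rcases Nat.eq_zero_or_pos e with rfl | he
        · refine tendsto_const_nhds.congr fun x => ?_
          simp [hterm]
        have h1 : Tendsto (fun x => moment n (s + 1) (x / e) / ((x / e : ℕ) : ℝ) ^ (n + (s + 1)) *
            (((x / e : ℕ) : ℝ) / x) ^ (n + (s + 1)) * (e : ℝ) ^ s) atTop
            (𝓝 (L * (1 / (e : ℝ)) ^ (n + (s + 1)) * (e : ℝ) ^ s)) :=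
          (((hL ▸ ih (s + 1)).comp (Nat.tendsto_div_const_atTop he.ne')).mul
            (tendsto_natDiv_div.pow _)).mul_const _
        rw [show L * (1 / (e : ℝ) ^ (n + 1)) = L * (1 / (e : ℝ)) ^ (n + (s + 1)) * (e : ℝ) ^ s by
          rw [div_pow, one_pow, show n + (s + 1) = n + 1 + s by omega, pow_add (e : ℝ) (n + 1) s]
          field_simp]
        refine h1.congr' ?_
        filter_upwards [eventually_ge_atTop e] with x hx
        have hxe : 0 < x / e := Nat.div_pos hx he
        rw [hterm]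
        simp only [Finset.mem_Icc, show 1 ≤ e ∧ e ≤ x from ⟨he, hx⟩, and_self, if_true]
        rw [div_pow, show n + (s + 1) = n + 1 + s by omega]
        have h2 : ((x / e : ℕ) : ℝ) ≠ 0 := by positivity
        field_simp
      · rw [hterm]
        dsimp only
        split_ifs with he
        · obtain ⟨he1, hex⟩ := Finset.mem_Icc.1 he
          have he' : (0 : ℝ) < e := Nat.cast_pos.2 he1
          have hx' : (0 : ℝ) < x := Nat.cast_pos.2 (by omega)
          have hm0 : 0 ≤ moment n (s + 1) (x / e) := Finset.sum_nonneg fun _ _ => by positivity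
          rw [Real.norm_of_nonneg (by positivity)]
          have h2 : ((x / e : ℕ) : ℝ) ≤ (x : ℝ) / (e : ℝ) := Nat.cast_div_le
          calc (e : ℝ) ^ s * moment n (s + 1) (x / e) / (x : ℝ) ^ (n + 1 + s)
              ≤ (e : ℝ) ^ s * (C * ((x : ℝ) / e) ^ (n + (s + 1))) / (x : ℝ) ^ (n + 1 + s) := by
                gcongr
                exact (hC _).trans (mul_le_mul_of_nonneg_left
                  (pow_le_pow_left₀ (Nat.cast_nonneg _) h2 _) hC0)
            _ = C * (1 / (e : ℝ) ^ (n + 1)) := by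
                rw [div_pow, show n + (s + 1) = n + 1 + s by omega, pow_add (e : ℝ) (n + 1) s]
                field_simp
        · rw [norm_zero]
          positivity
    simp only [hsum] at hlim
    convert! hlim using 2
    rw [tsum_mul_left, hL, zetaProd_succ hn, show n + (s + 1) = n + 1 + s by omega]
    ring

/-- The subgroups of index at most `D`. -/
def subgroupsUpTo (n D : ℕ) : Set (AddSubgroup (Fin n → ℤ)) :=
  {L | 1 ≤ L.index ∧ L.index ≤ D}

theorem ncard_subgroupsUpTo (n D : ℕ) :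
    (subgroupsUpTo n D).Finite ∧ ((subgroupsUpTo n D).ncard : ℝ) = moment n 0 D := by
  classical
  have h : subgroupsUpTo n D = ⋃ d ∈ Finset.Icc 1 D, idxSet n d := by
    ext L
    simp [subgroupsUpTo, idxSet]
  have hfin : (⋃ d ∈ Finset.Icc 1 D, idxSet n d).Finite :=
    (Finset.Icc 1 D).finite_toSet.biUnion fun d hd => finite_idxSet (by
      have := (Finset.mem_Icc.1 (Finset.mem_coe.1 hd)).1
      omega)
  refine ⟨h ▸ hfin, ?_⟩
  have hd : ∀ d ∈ Finset.Icc 1 D, (idxSet n d).Finite := fun d hd => finite_idxSet (by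
    have := (Finset.mem_Icc.1 hd).1
    omega)
  rw [moment, h]
  have hncard : ∀ T : Finset ℕ, T ⊆ Finset.Icc 1 D →
      (⋃ d ∈ T, idxSet n d).ncard = ∑ d ∈ T, idxCount n d := by
    intro T
    induction T using Finset.induction_on with
    | empty => simp
    | insert a T ha ih =>
      intro hsub
      have ht : (⋃ d ∈ T, idxSet n d).Finite := hfin.subset
        (Set.biUnion_subset_biUnion_left fun d hd' => hsub (Finset.mem_insert_of_mem hd'))
      rw [Finset.set_biUnion_insert, Finset.sum_insert ha,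
        Set.ncard_union_eq ?_ (hd a (hsub (Finset.mem_insert_self a T))) ht,
        ih ((Finset.subset_insert a T).trans hsub)]
      · rfl
      · refine Set.disjoint_left.2 fun L hL hL' => ?_
        obtain ⟨d, hd', hL'⟩ := Set.mem_iUnion₂.1 hL'
        exact ha (by
          have : a = d := hL.symm.trans hL'
          rwa [this])
  rw [hncard _ subset_rfl, Nat.cast_sum]
  simp

theorem tendsto_subgroupsUpTo {n : ℕ} (hn : 1 ≤ n) :
    Tendsto (fun D : ℕ => ((subgroupsUpTo n D).ncard : ℝ) / (D : ℝ) ^ n) atTop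
      (𝓝 (zetaProd n / n)) := by
  simpa [(ncard_subgroupsUpTo n _).2] using tendsto_moment n hn 0

end FA.SLnVolume

end
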