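import Fermat.Agent.Reduction.Basic
import Mathlib.LinearAlgebra.FreeModule.Finite.CardQuotient
import Mathlib.Data.ZMod.Basic
import Mathlib.GroupTheory.Index
import Mathlib.NumberTheory.Divisors

/-!
# Subgroups of `ℤ ^ n` of given index

Splitting off the first coordinate gives the recursion `a (n + 1) d = ∑ f a n f` over `e f = d`;
splitting off the first axis bounds the number of those subgroups which contain a given vector.
-/

set_option autoImplicit false

noncomputable section

open Finset

namespace FA.SLnVolume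

variable {n : ℕ}

/-- The subgroups of index `d` of `ℤ ^ n`. -/
def idxSet (n d : ℕ) : Set (AddSubgroup (Fin n → ℤ)) := {L | L.index = d}

/-- The number of subgroups of index `d` of `ℤ ^ n`. -/
def idxCount (n d : ℕ) : ℕ := (idxSet n d).ncard

theorem nsmul_mem_of_index {L : AddSubgroup (Fin n → ℤ)} (v : Fin n → ℤ) :
    L.index • v ∈ L := L.nsmul_index_mem v

theorem finite_idxSet {d : ℕ} (hd : d ≠ 0) : (idxSet n d).Finite := by
  haveI : NeZero d := ⟨hd⟩
  obtain ⟨φ, hφ⟩ : ∃ φ : (Fin n → ℤ) →+ (Fin n → ZMod d),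
      ∀ v i, φ v i = (v i : ZMod d) :=
    ⟨AddMonoidHom.compLeft (Int.castAddHom (ZMod d)) (Fin n), fun _ _ => rfl⟩
  refine Set.Finite.of_injOn (f := fun L => L.map φ) (Set.mapsTo_univ _ _) ?_ Set.finite_univ
  intro L hL M hM h
  have key : ∀ L : AddSubgroup (Fin n → ℤ), L.index = d → φ.ker ≤ L := by
    intro L hL v hv
    have h1 : ∀ i, (d : ℤ) ∣ v i := fun i =>
      (ZMod.intCast_zmod_eq_zero_iff_dvd (v i) d).1 (by rw [← hφ, AddMonoidHom.mem_ker.1 hv]; rfl)
    choose w hw using h1
    have e : v = L.index • w := by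
      funext i
      rw [Pi.smul_apply, nsmul_eq_mul, hL]
      exact hw i
    rw [e]
    exact L.nsmul_index_mem w
  have e1 := congrArg (AddSubgroup.comap φ) h
  rwa [AddSubgroup.comap_map_eq_self (key L hL), AddSubgroup.comap_map_eq_self (key M hM)] at e1

theorem idxCount_zero (d : ℕ) : idxCount 0 d = if d = 1 then 1 else 0 := by
  have h : ∀ L : AddSubgroup (Fin 0 → ℤ), L.index = 1 := fun L =>
    AddSubgroup.index_eq_one.2 ((AddSubgroup.eq_top_iff' L).2 fun v => by
      rw [Subsingleton.elim v 0]
      exact L.zero_mem)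
  rw [idxCount]
  split_ifs with hd
  · rw [Set.ncard_eq_one]
    refine ⟨⊤, Set.eq_singleton_iff_unique_mem.2 ⟨by rw [hd]; exact h _, fun L _ => ?_⟩⟩
    exact (AddSubgroup.index_eq_one.1 (h L))
  · rw [Set.ncard_eq_zero]
    exact Set.eq_empty_iff_forall_notMem.2 fun L hL => hd ((h L).symm.trans hL).symm

/-- The first coordinate. -/
def headHom (n : ℕ) : (Fin (n + 1) → ℤ) →+ ℤ := Pi.evalAddMonoidHom (fun _ => ℤ) 0

/-- The other coordinates. -/
def tailHom (n : ℕ) : (Fin (n + 1) → ℤ) →+ (Fin n → ℤ) where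
  toFun v i := v i.succ
  map_zero' := rfl
  map_add' _ _ := rfl

/-- The inclusion of the other coordinates. -/
def consHom (n : ℕ) : (Fin n → ℤ) →+ (Fin (n + 1) → ℤ) where
  toFun v := Fin.cons 0 v
  map_zero' := by funext i; induction i using Fin.cases <;> simp
  map_add' _ _ := by funext i; induction i using Fin.cases <;> simp

/-- The first axis. -/
def axisHom (n : ℕ) : ℤ →+ (Fin (n + 1) → ℤ) where
  toFun t := Fin.cons t 0
  map_zero' := by funext i; induction i using Fin.cases <;> simp
  map_add' _ _ := by funext i; induction i using Fin.cases <;> simp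

theorem exists_eq_zmultiples (H : AddSubgroup ℤ) : ∃ e : ℕ, H = AddSubgroup.zmultiples (e : ℤ) := by
  obtain ⟨g, hg⟩ := Int.subgroup_cyclic H
  rw [← AddSubgroup.zmultiples_eq_closure] at hg
  exact ⟨g.natAbs, by rw [hg, Int.zmultiples_natAbs]⟩

theorem index_mul {E A B : Type*} [AddCommGroup E] [AddCommGroup A] [AddCommGroup B]
    (ι : A →+ E) (π : E →+ B) (hπ : Function.Surjective π) (hex : ι.range = π.ker)
    (L : AddSubgroup E) : L.index = (L.map π).index * (L.comap ι).index := by
  rw [AddSubgroup.index_comap, hex, ← AddSubgroup.relIndex_sup_right, sup_comm,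
    show (L.map π).index = (L ⊔ π.ker).index by
      rw [AddSubgroup.index_map, AddMonoidHom.range_eq_top.2 hπ, AddSubgroup.index_top, mul_one],
    mul_comm, AddSubgroup.relIndex_mul_index le_sup_left]

theorem index_head (L : AddSubgroup (Fin (n + 1) → ℤ)) :
    L.index = (L.map (headHom n)).index * (L.comap (consHom n)).index := by
  refine index_mul _ _ (fun t => ⟨Fin.cons t 0, rfl⟩) ?_ L
  ext v
  constructor
  · rintro ⟨w, rfl⟩
    rfl
  · intro hv
    refine ⟨fun i => v i.succ, funext fun i => ?_⟩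
    induction i using Fin.cases
    · exact (show v 0 = 0 from hv).symm
    · simp [consHom]

theorem index_tail (L : AddSubgroup (Fin (n + 1) → ℤ)) :
    L.index = (L.map (tailHom n)).index * (L.comap (axisHom n)).index := by
  refine index_mul _ _ (fun t => ⟨Fin.cons 0 t, funext fun i => by simp [tailHom]⟩) ?_ L
  ext v
  constructor
  · rintro ⟨t, rfl⟩
    exact funext fun i => by simp [tailHom, axisHom]
  · intro hv
    refine ⟨v 0, funext fun i => ?_⟩
    induction i using Fin.cases with
    | zero => simp [axisHom]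
    | succ j =>
      have h : v j.succ = 0 := congrFun (show tailHom n v = 0 from hv) j
      simp [axisHom, h]

/-- The subgroup glued from `e`, `M` and a class of `c`. -/
def glue (e : ℕ) (M : AddSubgroup (Fin n → ℤ)) (c : Fin n → ℤ) :
    AddSubgroup (Fin (n + 1) → ℤ) where
  carrier := {v | ∃ t : ℤ, v 0 = t * e ∧ (fun i => v i.succ) - t • c ∈ M}
  zero_mem' := ⟨0, by simp, by rw [zero_smul, sub_zero]; exact M.zero_mem⟩
  add_mem' := by
    rintro v w ⟨s, hs, hv⟩ ⟨t, ht, hw⟩
    refine ⟨s + t, by rw [Pi.add_apply, hs, ht]; ring, ?_⟩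
    have := M.add_mem hv hw
    rw [add_smul]
    convert! this using 1
    funext i
    simp
    abel
  neg_mem' := by
    rintro v ⟨s, hs, hv⟩
    refine ⟨-s, by rw [Pi.neg_apply, hs]; ring, ?_⟩
    have := M.neg_mem hv
    rw [neg_smul]
    convert! this using 1
    funext i
    simp
    abel

theorem glue_head (e : ℕ) (M : AddSubgroup (Fin n → ℤ)) (c : Fin n → ℤ) :
    (glue e M c).map (headHom n) = AddSubgroup.zmultiples (e : ℤ) := by
  ext x
  constructor
  · rintro ⟨v, ⟨t, ht, -⟩, rfl⟩
    exact ⟨t, by simp [headHom, ht]⟩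
  · rintro ⟨t, rfl⟩
    refine ⟨Fin.cons (t * e) (t • c), ⟨t, by simp, ?_⟩, by simp [headHom]⟩
    simp only [Fin.cons_succ]
    rw [show (fun i => (t • c) i) = t • c from rfl, sub_self]
    exact M.zero_mem

theorem glue_comap {e : ℕ} (he : e ≠ 0) (M : AddSubgroup (Fin n → ℤ)) (c : Fin n → ℤ) :
    (glue e M c).comap (consHom n) = M := by
  ext v
  constructor
  · rintro ⟨t, ht, hv⟩
    have : t = 0 := by simpa [consHom, he] using ht.symm
    simpa [this, consHom] using hv
  · intro hv
    exact ⟨0, by simp [consHom], by simpa [consHom] using hv⟩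

theorem index_glue {e : ℕ} (he : e ≠ 0) (M : AddSubgroup (Fin n → ℤ)) (c : Fin n → ℤ) :
    (glue e M c).index = e * M.index := by
  rw [index_head, glue_head, glue_comap he, Int.index_zmultiples, Int.natAbs_natCast]

/-- **The recursion.** -/
theorem idxCount_succ (n : ℕ) {d : ℕ} (hd : d ≠ 0) :
    idxCount (n + 1) d = ∑ p ∈ d.divisorsAntidiagonal, p.2 * idxCount n p.2 := by
  classical
  have hne : ∀ p : d.divisorsAntidiagonal, p.1.1 ≠ 0 ∧ p.1.2 ≠ 0 := fun p => by
    have := Nat.mem_divisorsAntidiagonal.1 p.2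
    refine ⟨fun h => ?_, fun h => ?_⟩ <;> rw [h] at this <;> simp at this <;> omega
  haveI : ∀ p : d.divisorsAntidiagonal, Finite (idxSet n p.1.2) := fun p =>
    (finite_idxSet (hne p).2).to_subtype
  haveI : ∀ (p : d.divisorsAntidiagonal) (M : idxSet n p.1.2),
      Finite ((Fin n → ℤ) ⧸ (M.1)) := fun p M =>
    Nat.finite_of_card_ne_zero (by
      show M.1.index ≠ 0
      rw [M.2]
      exact (hne p).2)
  obtain ⟨Φ, hΦ⟩ : ∃ Φ : (Σ p : d.divisorsAntidiagonal, Σ M : idxSet n p.1.2,
      (Fin n → ℤ) ⧸ M.1) → idxSet (n + 1) d, ∀ x, (Φ x).1 = glue x.1.1.1 x.2.1.1 x.2.2.out :=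
    ⟨fun x => ⟨glue x.1.1.1 x.2.1.1 x.2.2.out, by
      show AddSubgroup.index _ = d
      rw [index_glue (hne x.1).1, x.2.1.2]
      exact (Nat.mem_divisorsAntidiagonal.1 x.1.2).1⟩, fun _ => rfl⟩
  have hbij : Function.Bijective Φ := by
    refine ⟨fun x y h => ?_, fun L => ?_⟩
    · have hL : glue x.1.1.1 x.2.1.1 x.2.2.out = glue y.1.1.1 y.2.1.1 y.2.2.out := by
        rw [← hΦ, ← hΦ, h]
      obtain ⟨⟨⟨e, f⟩, hp⟩, ⟨M, hM⟩, q⟩ := x
      obtain ⟨⟨⟨e', f'⟩, hp'⟩, ⟨M', hM'⟩, q'⟩ := y
      have h1 : e = e' := by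
        have := congrArg (fun L : AddSubgroup _ => (L.map (headHom n)).index) hL
        simpa [glue_head, Int.index_zmultiples] using this
      subst h1
      have hpe := Nat.mem_divisorsAntidiagonal.1 hp
      have hpe' := Nat.mem_divisorsAntidiagonal.1 hp'
      have he : e ≠ 0 := (hne ⟨_, hp⟩).1
      have h2 : M = M' := by
        have := congrArg (AddSubgroup.comap (consHom n)) hL
        rwa [glue_comap he, glue_comap he] at this
      subst h2
      have h3 : f = f' := by
        have a1 : M.index = f := hM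
        have a2 : M.index = f' := hM'
        omega
      subst h3
      have h4 : Fin.cons (e : ℤ) q.out ∈ glue e M q'.out := by
        have hm : Fin.cons (e : ℤ) q.out ∈ glue e M q.out :=
          ⟨1, by simp, by simpa using M.zero_mem⟩
        exact hL ▸ hm
      obtain ⟨t, ht, hmem⟩ := h4
      have ht1 : t = 1 := by
        rw [Fin.cons_zero] at ht
        exact (mul_eq_right₀ (Int.natCast_ne_zero.2 he)).1 ht.symm
      rw [ht1, one_smul] at hmem
      have h5 : (QuotientAddGroup.mk q.out : (Fin n → ℤ) ⧸ M) = QuotientAddGroup.mk q'.out :=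
        QuotientAddGroup.eq_iff_sub_mem.2 (by simpa using hmem)
      rw [QuotientAddGroup.out_eq', QuotientAddGroup.out_eq'] at h5
      subst h5
      rfl
    · obtain ⟨L, hL⟩ := L
      obtain ⟨e, he⟩ := exists_eq_zmultiples (L.map (headHom n))
      have hidx : L.index = e * (L.comap (consHom n)).index := by
        rw [index_head, he, Int.index_zmultiples, Int.natAbs_natCast]
      have hmem : (e : ℤ) ∈ L.map (headHom n) := he ▸ AddSubgroup.mem_zmultiples _
      obtain ⟨v, hv, hv0⟩ := hmem
      have hp : (e, (L.comap (consHom n)).index) ∈ d.divisorsAntidiagonal :=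
        Nat.mem_divisorsAntidiagonal.2 ⟨by rw [← hidx]; exact hL, hd⟩
      refine ⟨⟨⟨_, hp⟩, ⟨L.comap (consHom n), rfl⟩, QuotientAddGroup.mk fun i => v i.succ⟩,
        Subtype.ext ?_⟩
      rw [hΦ]
      dsimp only
      obtain ⟨m, hm⟩ := QuotientAddGroup.mk_out_eq_mul (L.comap (consHom n)) fun i => v i.succ
      rw [hm]
      ext w
      constructor
      · rintro ⟨t, ht, hw⟩
        have h1 : consHom n ((fun i => w i.succ) - t • ((fun i => v i.succ) + (m : Fin n → ℤ))) +
            t • (v + consHom n m) = w := by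
          funext i
          induction i using Fin.cases with
          | zero =>
            simp only [Pi.add_apply, Pi.smul_apply, consHom, AddMonoidHom.coe_mk, ZeroHom.coe_mk,
              Fin.cons_zero, ht, smul_eq_mul]
            rw [show v 0 = (e : ℤ) from hv0]
            ring
          | succ j => simp [consHom]
        rw [← h1]
        exact L.add_mem hw (L.zsmul_mem (L.add_mem hv m.2) t)
      · intro hw
        have hw0 : w 0 ∈ AddSubgroup.zmultiples (e : ℤ) := he ▸ ⟨w, hw, rfl⟩
        obtain ⟨t, ht⟩ := hw0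
        refine ⟨t, by simpa using ht.symm, ?_⟩
        have h1 : consHom n ((fun i => w i.succ) - t • ((fun i => v i.succ) + (m : Fin n → ℤ))) =
            w - t • (v + consHom n m) := by
          funext i
          induction i using Fin.cases with
          | zero =>
            simp [consHom, show v 0 = (e : ℤ) from hv0, show w 0 = t * e by simpa using ht.symm]
          | succ j => simp [consHom]
        show consHom n _ ∈ L
        rw [h1]
        exact L.sub_mem hw (L.zsmul_mem (L.add_mem hv m.2) t)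
  rw [idxCount, ← Nat.card_coe_set_eq, ← Nat.card_eq_of_bijective Φ hbij, Nat.card_sigma,
    ← Finset.sum_coe_sort d.divisorsAntidiagonal]
  refine Finset.sum_congr rfl fun p _ => ?_
  haveI := Fintype.ofFinite (idxSet n p.1.2)
  rw [Nat.card_sigma, Finset.sum_congr rfl fun M _ => (show Nat.card ((Fin n → ℤ) ⧸ M.1) = p.1.2
      from M.2), Finset.sum_const, Finset.card_univ, smul_eq_mul, idxCount,
    ← Nat.card_coe_set_eq, Nat.card_eq_fintype_card, mul_comm]

/-- The subgroups of index `d` containing a given vector. -/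
def withVector (d : ℕ) (v : Fin n → ℤ) : Set (AddSubgroup (Fin n → ℤ)) :=
  {L | L.index = d ∧ v ∈ L}

theorem ncard_withAxis_le (n : ℕ) {d : ℕ} (hd : d ≠ 0) (g : ℤ) :
    (withVector d (axisHom n g)).ncard ≤
      ∑ p ∈ d.divisorsAntidiagonal.filter (fun p => (p.1 : ℤ) ∣ g), p.1 ^ n * idxCount n p.2 := by
  classical
  obtain ⟨T, hT⟩ : ∃ T : Set (AddSubgroup (Fin (n + 1) → ℤ)), T = withVector d (axisHom n g) :=
    ⟨_, rfl⟩
  have hTfin : T.Finite := hT ▸ (finite_idxSet hd).subset fun L h => h.1
  obtain ⟨fib, hfib⟩ : ∃ fib : ℕ × ℕ → AddSubgroup (Fin n → ℤ) → Finset _,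
      fib = fun p M => hTfin.toFinset.filter fun L : AddSubgroup (Fin (n + 1) → ℤ) =>
        L.comap (axisHom n) = AddSubgroup.zmultiples (p.1 : ℤ) ∧ L.map (tailHom n) = M :=
    ⟨_, rfl⟩
  have hsub : hTfin.toFinset ⊆
      (d.divisorsAntidiagonal.filter fun p => (p.1 : ℤ) ∣ g).biUnion fun p =>
        if hp : p.2 = 0 then ∅ else (finite_idxSet (n := n) hp).toFinset.biUnion (fib p) := by
    intro L hL
    have hL' := hL
    rw [Set.Finite.mem_toFinset, hT] at hL'
    obtain ⟨hL1, hg⟩ := hL'
    obtain ⟨e, he⟩ := exists_eq_zmultiples (L.comap (axisHom n))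
    have hidx : L.index = (L.map (tailHom n)).index * e := by
      rw [index_tail, he, Int.index_zmultiples, Int.natAbs_natCast]
    have hne : (L.map (tailHom n)).index ≠ 0 := fun h => hd (by rw [← hL1, hidx, h, zero_mul])
    refine Finset.mem_biUnion.2 ⟨(e, (L.map (tailHom n)).index), Finset.mem_filter.2
      ⟨Nat.mem_divisorsAntidiagonal.2 ⟨by rw [← hL1, hidx, mul_comm], hd⟩, ?_⟩, ?_⟩
    · have hg' : g ∈ L.comap (axisHom n) := hg
      rw [he] at hg'
      obtain ⟨t, ht⟩ := hg'
      exact ⟨t, by rw [← ht]; simp [mul_comm]⟩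
    · rw [dif_neg hne]
      exact Finset.mem_biUnion.2 ⟨L.map (tailHom n), (Set.Finite.mem_toFinset _).2 rfl,
        hfib ▸ Finset.mem_filter.2 ⟨hL, he, rfl⟩⟩
  have hfibcard : ∀ p : ℕ × ℕ, p.1 ≠ 0 → ∀ M : AddSubgroup (Fin n → ℤ),
      (fib p M).card ≤ p.1 ^ n := by
    intro p hp M
    haveI : NeZero p.1 := ⟨hp⟩
    obtain ⟨k, b⟩ := Submodule.basisOfPid (Pi.basisFun ℤ (Fin n)) M.toIntSubmodule
    have hk : k ≤ n := by
      have h1 := (b.linearIndependent.map' (Submodule.subtype _)
        (Submodule.ker_subtype _)).fintype_card_le_finrank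
      simpa using h1
    have hlift : ∀ L ∈ fib p M, ∀ i, ∃ v ∈ L, tailHom n v = (b i : Fin n → ℤ) := by
      intro L hL i
      rw [hfib, Finset.mem_filter] at hL
      have : (b i : Fin n → ℤ) ∈ L.map (tailHom n) := hL.2.2 ▸ (b i).2
      obtain ⟨v, hv, hv'⟩ := this
      exact ⟨v, hv, hv'⟩
    choose! lift hliftm hlift using hlift
    refine le_trans (Finset.card_le_card_of_injOn (t := (Finset.univ : Finset (Fin k → ZMod p.1)))
      (fun L i => (lift L i 0 : ZMod p.1)) (fun _ _ => Finset.mem_univ _) ?_) ?_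
    · intro L hL L' hL' h
      have key : ∀ L ∈ fib p M, ∀ L' ∈ fib p M,
          (∀ i, (lift L i 0 : ZMod p.1) = lift L' i 0) → L ≤ L' := by
        intro L hL L' hL' h v hv
        have hL2 := hL
        have hL2' := hL'
        rw [hfib, Finset.mem_filter] at hL2 hL2'
        have haxis : ∀ w ∈ L, tailHom n w = 0 → w ∈ L' := by
          intro w hw h0
          have e1 : w = axisHom n (w 0) := by
            funext i
            induction i using Fin.cases with
            | zero => simp [axisHom]
            | succ j => simpa [axisHom, tailHom] using congrFun h0 j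
          have h1 : w 0 ∈ L'.comap (axisHom n) := by
            rw [hL2'.2.1, ← hL2.2.1, AddSubgroup.mem_comap, ← e1]
            exact hw
          rw [e1]
          exact h1
        have hlifts : ∀ i, lift L i ∈ L' := by
          intro i
          have h0 : (p.1 : ℤ) ∣ lift L i 0 - lift L' i 0 := by
            rw [← ZMod.intCast_zmod_eq_zero_iff_dvd, Int.cast_sub, h i, sub_self]
          have h1 : lift L i 0 - lift L' i 0 ∈ L'.comap (axisHom n) := by
            rw [hL2'.2.1]
            obtain ⟨t, ht⟩ := h0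
            exact ⟨t, by rw [ht]; simp [mul_comm]⟩
          have e1 : lift L i = lift L' i + axisHom n (lift L i 0 - lift L' i 0) := by
            funext j
            induction j using Fin.cases with
            | zero => simp [axisHom]
            | succ j =>
              have := (hlift L hL i).trans (hlift L' hL' i).symm
              simpa [axisHom, tailHom] using congrFun this j
          rw [e1]
          exact L'.add_mem (hliftm L' hL' i) h1
        have hvM : tailHom n v ∈ M := hL2.2.2 ▸ ⟨v, hv, rfl⟩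
        obtain ⟨c, hc⟩ : ∃ c : Fin k → ℤ, c = fun i => b.repr ⟨tailHom n v, hvM⟩ i := ⟨_, rfl⟩
        have hsum : tailHom n (∑ i, c i • lift L i) = tailHom n v := by
          rw [map_sum]
          simp only [map_zsmul, hlift L hL]
          have := congrArg (M.toIntSubmodule.subtype) (b.sum_repr ⟨tailHom n v, hvM⟩)
          rw [map_sum] at this
          simp only [map_smul, Submodule.coe_subtype] at this
          simp only [hc]
          exact this
        have h1 := haxis (v - ∑ i, c i • lift L i)
          (L.sub_mem hv (L.sum_mem fun i _ => L.zsmul_mem (hliftm L hL i) _))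
          (by rw [map_sub, hsum, sub_self])
        have h2 := L'.add_mem h1 (L'.sum_mem fun i (_ : i ∈ Finset.univ) =>
          L'.zsmul_mem (hlifts i) (c i))
        rwa [sub_add_cancel] at h2
      exact le_antisymm (key L hL L' hL' (congrFun h))
        (key L' hL' L hL fun i => (congrFun h i).symm)
    · rw [Finset.card_univ, Fintype.card_fun, ZMod.card, Fintype.card_fin]
      exact Nat.pow_le_pow_right (Nat.pos_of_ne_zero hp) hk
  rw [← hT, Set.ncard_eq_toFinset_card _ hTfin]
  refine (Finset.card_le_card hsub).trans (Finset.card_biUnion_le.trans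
    (Finset.sum_le_sum fun p hp => ?_))
  obtain ⟨hp1, -⟩ := Finset.mem_filter.1 hp
  obtain ⟨hpd, -⟩ := Nat.mem_divisorsAntidiagonal.1 hp1
  have hp10 : p.1 ≠ 0 := fun h => hd (by rw [← hpd, h, zero_mul])
  have hp20 : p.2 ≠ 0 := fun h => hd (by rw [← hpd, h, mul_zero])
  rw [dif_neg hp20]
  refine Finset.card_biUnion_le.trans ((Finset.sum_le_card_nsmul _ _ _
    fun M _ => hfibcard p hp10 M).trans_eq ?_)
  rw [idxCount, Set.ncard_eq_toFinset_card _ (finite_idxSet hp20), smul_eq_mul, mul_comm]

/-- **Subgroups containing a given vector.** -/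
theorem ncard_withVector_le (n : ℕ) {v : Fin (n + 1) → ℤ} (hv : v ≠ 0) :
    ∃ g : ℕ, g ≠ 0 ∧ (∀ i, (g : ℤ) ∣ v i) ∧ ∀ d : ℕ, d ≠ 0 → (withVector d v).ncard ≤
      ∑ p ∈ d.divisorsAntidiagonal.filter (fun p => p.1 ∣ g), p.1 ^ n * idxCount n p.2 := by
  classical
  obtain ⟨g, w, hg, hw, rfl⟩ := FA.Reduction.exists_primitive_smul hv
  obtain ⟨U, hU, hcol⟩ := FA.Reduction.exists_unimodular_col hw
  refine ⟨g.natAbs, by simpa using hg, fun i => ?_, fun d hd => ?_⟩
  · exact Int.natAbs_dvd.2 ⟨w i, by simp⟩
  obtain ⟨φ, hφ⟩ : ∃ φ : (Fin (n + 1) → ℤ) ≃+ (Fin (n + 1) → ℤ),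
      ∀ x, φ x = Matrix.mulVec U x := by
    refine ⟨(Matrix.toLinearEquiv' U (Matrix.invertibleOfIsUnitDet U hU)).toAddEquiv, fun x => ?_⟩
    rfl
  have hax : φ (axisHom n g) = g • w := by
    rw [hφ]
    funext i
    simp [Matrix.mulVec, dotProduct, axisHom, Fin.sum_univ_succ, hcol, mul_comm]
  calc (withVector d (g • w)).ncard
      ≤ (withVector d (axisHom n g)).ncard := by
        refine Set.ncard_le_ncard_of_injOn (fun L => L.comap φ.toAddMonoidHom) (fun L hL => ?_)
          (fun L _ M _ h => AddSubgroup.comap_injective φ.surjective h)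
          ((finite_idxSet hd).subset fun L h => h.1)
        refine ⟨?_, ?_⟩
        · rw [AddSubgroup.index_comap_of_surjective _ (f := φ.toAddMonoidHom) φ.surjective]
          exact hL.1
        · show φ (axisHom n g) ∈ L
          rw [hax]
          exact hL.2
    _ ≤ _ := by
        refine (ncard_withAxis_le n hd g).trans_eq (Finset.sum_congr ?_ fun _ _ => rfl)
        exact Finset.filter_congr fun p _ => by rw [Int.natCast_dvd]

end FA.SLnVolume

end
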